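import Mathlib

/-!
# JAC / S26 track, chapter VOL: basic definitions (helper63)

Abstract "Riemann–Roch spaces" of an effective Cartier divisor given by local equations, inside a
field `F` over `K`, with respect to a family of subalgebras `O x ⊆ F` ("local rings").

* `L O h k = {f | ∀ x, f * h x ^ k ∈ O x}` : `Submodule K F`   (this is `L(kD)`).
* `Gam O h = ⋃ k, L O h k` : `Subalgebra K F`   (this is `Γ(U)`, `U` the complement of `D`).
-/

set_option autoImplicit false

namespace Fermat.Agent.JAC.Vol.Basic63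

variable {K F : Type*} [Field K] [Field F] [Algebra K F]
variable {X : Type*} (O : X → Subalgebra K F) (h : X → F)

/-- `L(kD)`: functions `f` with `f * h_x ^ k ∈ O_x` for all points `x`. -/
def L (k : ℕ) : Submodule K F where
  carrier := {f | ∀ x, f * h x ^ k ∈ O x}
  add_mem' := by
    intro a b ha hb x
    rw [add_mul]
    exact (O x).add_mem (ha x) (hb x)
  zero_mem' := by
    intro x
    rw [zero_mul]
    exact (O x).zero_mem
  smul_mem' := by
    intro c a ha x
    rw [Algebra.smul_mul_assoc]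
    exact (O x).smul_mem (ha x) c

variable {O h}

theorem mem_L {k : ℕ} {f : F} : f ∈ L O h k ↔ ∀ x, f * h x ^ k ∈ O x := Iff.rfl

theorem algebraMap_mem_L_zero (c : K) : algebraMap K F c ∈ L O h 0 := by
  intro x
  simp

theorem one_mem_L_zero : (1 : F) ∈ L O h 0 := by
  simpa using algebraMap_mem_L_zero (O := O) (h := h) (1 : K)

theorem mul_mem_L {k l : ℕ} {f f' : F} (hf : f ∈ L O h k) (hf' : f' ∈ L O h l) :
    f * f' ∈ L O h (k + l) := by
  intro x
  have : f * f' * h x ^ (k + l) = (f * h x ^ k) * (f' * h x ^ l) := by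
    rw [pow_add]; ring
  rw [this]
  exact (O x).mul_mem (hf x) (hf' x)

theorem pow_mem_L {k : ℕ} {f : F} (hf : f ∈ L O h k) (j : ℕ) : f ^ j ∈ L O h (j * k) := by
  induction j with
  | zero => simpa using one_mem_L_zero (O := O) (h := h)
  | succ j ih =>
    rw [pow_succ, Nat.succ_mul]
    exact mul_mem_L ih hf

/-- Monotonicity in `k` for an *effective* divisor (`h x ∈ O x`). -/
theorem L_mono (heff : ∀ x, h x ∈ O x) {k l : ℕ} (hkl : k ≤ l) : L O h k ≤ L O h l := by
  intro f hf x
  obtain ⟨j, rfl⟩ := Nat.exists_eq_add_of_le hkl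
  have : f * h x ^ (k + j) = (f * h x ^ k) * h x ^ j := by rw [pow_add]; ring
  rw [this]
  exact (O x).mul_mem (hf x) ((O x).pow_mem (heff x) j)

variable (O h)

/-- `Γ(U) = ⋃ₖ L(kD)` as a subalgebra of `F` (for an effective divisor). -/
def Gam (heff : ∀ x, h x ∈ O x) : Subalgebra K F where
  carrier := {f | ∃ k, f ∈ L O h k}
  mul_mem' := by
    rintro a b ⟨k, hk⟩ ⟨l, hl⟩
    exact ⟨k + l, mul_mem_L hk hl⟩
  add_mem' := by
    rintro a b ⟨k, hk⟩ ⟨l, hl⟩
    exact ⟨max k l, (L O h (max k l)).add_mem (L_mono heff (le_max_left k l) hk)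
      (L_mono heff (le_max_right k l) hl)⟩
  algebraMap_mem' := fun c => ⟨0, algebraMap_mem_L_zero c⟩

variable {O h}

theorem mem_Gam {heff : ∀ x, h x ∈ O x} {f : F} : f ∈ Gam O h heff ↔ ∃ k, f ∈ L O h k := Iff.rfl

theorem L_le_Gam (heff : ∀ x, h x ∈ O x) (k : ℕ) :
    L O h k ≤ Subalgebra.toSubmodule (Gam O h heff) := fun _ hf => ⟨k, hf⟩

/-- Finitely many elements of `Γ` lie in a common `L m`. -/
theorem exists_forall_mem_L {heff : ∀ x, h x ∈ O x} {ι : Type*} [Finite ι] (f : ι → F)
    (hf : ∀ i, f i ∈ Gam O h heff) : ∃ m, ∀ i, f i ∈ L O h m := by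
  classical
  cases nonempty_fintype ι
  choose k hk using hf
  refine ⟨Finset.univ.sup k, fun i => L_mono heff (Finset.le_sup (Finset.mem_univ i)) (hk i)⟩

end Fermat.Agent.JAC.Vol.Basic63
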