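import Mathlib
import Fermat.Agent.JAC.Vol.Basic63

/-!
# JAC / S26 track, chapter VOL, brick SANDWICH (helper63)

`F / F'` finite separable of degree `d`, local rings `O' x ⊆ F'`, `O x ⊆ F` with `O' x ⊆ O x` and
`Tr(O x) ⊆ O' x`, a divisor `h x ∈ F'`.  If `F` has an `F'`-basis inside `Γ = ⋃ L(kD)` then

  `d · dim L'(k) ≤ dim L(k + m)`  and  `dim L(k) ≤ d · dim L'(k + m)`.
-/

set_option autoImplicit false

namespace Fermat.Agent.JAC.Vol.Sandwich63

open Fermat.Agent.JAC.Vol.Basic63

variable {K F' F : Type*} [Field K] [Field F'] [Field F] [Algebra K F'] [Algebra K F]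
  [Algebra F' F] [IsScalarTower K F' F]
variable {X : Type*} (O' : X → Subalgebra K F') (O : X → Subalgebra K F) (h : X → F')

/-- The pulled back local equations. -/
abbrev hF : X → F := fun x => algebraMap F' F (h x)

variable {O' O h}

omit [IsScalarTower K F' F] in
theorem hF_mem (hsub : ∀ x, ∀ u ∈ O' x, algebraMap F' F u ∈ O x) (heff : ∀ x, h x ∈ O' x) :
    ∀ x, hF h x ∈ O x := fun x => hsub x _ (heff x)

omit [IsScalarTower K F' F] in
/-- `L'(k) · L(m) ⊆ L(k + m)`. -/
theorem algebraMap_mul_mem_L (hsub : ∀ x, ∀ u ∈ O' x, algebraMap F' F u ∈ O x) {k m : ℕ}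
    {c : F'} (hc : c ∈ L O' h k) {z : F} (hz : z ∈ L O (hF h) m) :
    algebraMap F' F c * z ∈ L O (hF h) (k + m) := by
  intro x
  have : algebraMap F' F c * z * hF h x ^ (k + m) =
      algebraMap F' F (c * h x ^ k) * (z * hF h x ^ m) := by
    simp only [hF, map_mul, map_pow, pow_add]; ring
  rw [this]
  exact (O x).mul_mem (hsub x _ (hc x)) (hz x)

omit [IsScalarTower K F' F] in
/-- `Tr(L(k) · L(m)) ⊆ L'(k + m)`. -/
theorem trace_mul_mem_L (htr : ∀ x, ∀ z ∈ O x, Algebra.trace F' F z ∈ O' x) {k m : ℕ}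
    {f z : F} (hf : f ∈ L O (hF h) k) (hz : z ∈ L O (hF h) m) :
    Algebra.trace F' F (f * z) ∈ L O' h (k + m) := by
  intro x
  have h1 : (f * z) * hF h x ^ (k + m) ∈ O x := mul_mem_L hf hz x
  have h2 := htr x _ h1
  have h3 : (f * z) * hF h x ^ (k + m) = (h x ^ (k + m)) • (f * z) := by
    rw [Algebra.smul_def, map_pow]; ring
  rw [h3, map_smul, smul_eq_mul, mul_comm] at h2
  exact h2

variable [FiniteDimensional F' F] [Algebra.IsSeparable F' F]

/-- **SANDWICH**, given a basis of `F / F'` inside `L(m)`. -/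
theorem sandwich_of_basis (hsub : ∀ x, ∀ u ∈ O' x, algebraMap F' F u ∈ O x)
    (htr : ∀ x, ∀ z ∈ O x, Algebra.trace F' F z ∈ O' x)
    (hfin : ∀ k, Module.Finite K (L O' h k))
    {ι : Type*} [Fintype ι] (e : Module.Basis ι F' F) {m : ℕ} (he : ∀ j, e j ∈ L O (hF h) m) :
    ∀ k : ℕ, Module.Finite K (L O (hF h) k) ∧
      Fintype.card ι * Module.finrank K (L O' h k) ≤ Module.finrank K (L O (hF h) (k + m)) ∧
      Module.finrank K (L O (hF h) k) ≤ Fintype.card ι * Module.finrank K (L O' h (k + m)) := by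
  classical
  -- upper half: `f ↦ (Tr (f e_j))_j`
  have upper : ∀ k : ℕ, Module.Finite K (L O (hF h) k) ∧
      Module.finrank K (L O (hF h) k) ≤ Fintype.card ι * Module.finrank K (L O' h (k + m)) := by
    intro k
    have := hfin (k + m)
    let τ : ι → (F →ₗ[K] F') := fun j =>
      ((Algebra.trace F' F).restrictScalars K) ∘ₗ (LinearMap.mulRight K (e j))
    have hτ : ∀ j (f : F), τ j f = Algebra.trace F' F (f * e j) := fun j f => rfl
    let Ψ : L O (hF h) k →ₗ[K] (ι → L O' h (k + m)) :=
      LinearMap.pi (fun j => ((τ j).domRestrict (L O (hF h) k)).codRestrict (L O' h (k + m))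
        (fun f => trace_mul_mem_L htr f.2 (he j)))
    have hΨ : Function.Injective Ψ := by
      rw [← LinearMap.ker_eq_bot, LinearMap.ker_eq_bot']
      intro f hf
      have h0 : ∀ j, Algebra.trace F' F ((f : F) * e j) = 0 := by
        intro j
        have hj := congrFun hf j
        have h1 : ((Ψ f j : L O' h (k + m)) : F') = 0 := by rw [hj]; rfl
        exact h1
      have hnd := traceForm_nondegenerate F' F
      have hzero : Algebra.traceForm F' F (f : F) = 0 := by
        apply e.ext
        intro j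
        simpa [Algebra.traceForm_apply] using h0 j
      have : (f : F) = 0 := hnd.1 (f : F) (fun y => by rw [hzero]; rfl)
      exact Subtype.ext this
    have hfinL : Module.Finite K (L O (hF h) k) := Module.Finite.of_injective Ψ hΨ
    refine ⟨hfinL, ?_⟩
    calc Module.finrank K (L O (hF h) k) ≤ Module.finrank K (ι → L O' h (k + m)) :=
          LinearMap.finrank_le_finrank_of_injective hΨ
      _ = Fintype.card ι * Module.finrank K (L O' h (k + m)) := by
          rw [Module.finrank_pi_fintype K]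
          simp
  intro k
  refine ⟨(upper k).1, ?_, (upper k).2⟩
  -- lower half: `(c_j) ↦ ∑ c_j e_j`
  have := hfin k
  have := (upper (k + m)).1
  let Θ : (ι → F') →ₗ[K] F := (e.equivFun.symm.toLinearMap).restrictScalars K
  have hΘ : ∀ c : ι → F', Θ c = ∑ j, algebraMap F' F (c j) * e j := by
    intro c
    simp only [Θ, LinearMap.coe_restrictScalars, LinearEquiv.coe_coe, Module.Basis.equivFun_symm_apply,
      Algebra.smul_def]
  let incl : (ι → L O' h k) →ₗ[K] (ι → F') :=
    LinearMap.pi (fun j => (L O' h k).subtype ∘ₗ LinearMap.proj j)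
  have hincl : Function.Injective incl := by
    intro c c' hcc
    funext j
    exact Subtype.ext (congrFun hcc j)
  let Λ : (ι → L O' h k) →ₗ[K] L O (hF h) (k + m) :=
    (Θ ∘ₗ incl).codRestrict (L O (hF h) (k + m)) (by
      intro c
      change Θ (incl c) ∈ _
      rw [hΘ]
      refine Submodule.sum_mem _ (fun j _ => ?_)
      exact algebraMap_mul_mem_L hsub (c j).2 (he j))
  have hΛ : Function.Injective Λ := by
    intro c c' hcc
    have h1 : Θ (incl c) = Θ (incl c') := congrArg Subtype.val hcc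
    have hΘinj : Function.Injective Θ := e.equivFun.symm.injective
    exact hincl (hΘinj h1)
  calc Fintype.card ι * Module.finrank K (L O' h k)
      = Module.finrank K (ι → L O' h k) := by
        rw [Module.finrank_pi_fintype K]
        simp
    _ ≤ Module.finrank K (L O (hF h) (k + m)) :=
        LinearMap.finrank_le_finrank_of_injective hΛ

omit [Algebra K F'] [IsScalarTower K F' F] in
/-- If every element of `F` can be moved into `Γ` by a nonzero scalar of `F'`, then `F / F'` has a
basis inside some `L(m)`. -/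
theorem exists_basis_mem_L (heffF : ∀ x, hF h x ∈ O x)
    (hfrac : ∀ z : F, ∃ v : F', v ≠ 0 ∧ algebraMap F' F v * z ∈ Gam O (hF h) heffF) :
    ∃ (m : ℕ) (e : Module.Basis (Fin (Module.finrank F' F)) F' F), ∀ j, e j ∈ L O (hF h) m := by
  classical
  let β : Module.Basis (Fin (Module.finrank F' F)) F' F := Module.finBasis F' F
  choose v hv0 hvΓ using fun j => hfrac (β j)
  let e := β.unitsSMul (fun j => Units.mk0 (v j) (hv0 j))
  have he : ∀ j, e j = algebraMap F' F (v j) * β j := by
    intro j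
    simp only [e, Module.Basis.unitsSMul_apply, Units.smul_def, Units.val_mk0, Algebra.smul_def]
  obtain ⟨m, hm⟩ := exists_forall_mem_L (heff := heffF) (fun j => e j)
    (fun j => by rw [he j]; exact hvΓ j)
  exact ⟨m, e, hm⟩

omit [IsScalarTower K F' F] [Algebra.IsSeparable F' F] in
/-- The trace hypothesis of SANDWICH follows from integrality of `O x` over an integrally closed
`O' x` (finite morphism to a normal variety). -/
theorem trace_mem_of_isIntegral
    (hclosed : ∀ x (u : F'), IsIntegral (O' x) u → u ∈ O' x)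
    (hint : ∀ x, ∀ z ∈ O x, IsIntegral (O' x) z) :
    ∀ x, ∀ z ∈ O x, Algebra.trace F' F z ∈ O' x :=
  fun x z hz => hclosed x _ (Algebra.isIntegral_trace (hint x z hz))

/-- **SANDWICH**. -/
theorem sandwich (hsub : ∀ x, ∀ u ∈ O' x, algebraMap F' F u ∈ O x)
    (htr : ∀ x, ∀ z ∈ O x, Algebra.trace F' F z ∈ O' x)
    (heff : ∀ x, h x ∈ O' x)
    (hfin : ∀ k, Module.Finite K (L O' h k))
    (hfrac : ∀ z : F, ∃ v : F', v ≠ 0 ∧
      algebraMap F' F v * z ∈ Gam O (hF h) (hF_mem hsub heff)) :
    ∃ m : ℕ, ∀ k : ℕ, Module.Finite K (L O (hF h) k) ∧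
      Module.finrank F' F * Module.finrank K (L O' h k) ≤
        Module.finrank K (L O (hF h) (k + m)) ∧
      Module.finrank K (L O (hF h) k) ≤
        Module.finrank F' F * Module.finrank K (L O' h (k + m)) := by
  obtain ⟨m, e, he⟩ := exists_basis_mem_L (hF_mem hsub heff) hfrac
  refine ⟨m, fun k => ?_⟩
  have := sandwich_of_basis hsub htr hfin e he k
  simpa using this

/-- **SANDWICH** in the shape consumed by `Arith63.eq_pow_of_sandwich`. -/
theorem sandwich' (hsub : ∀ x, ∀ u ∈ O' x, algebraMap F' F u ∈ O x)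
    (htr : ∀ x, ∀ z ∈ O x, Algebra.trace F' F z ∈ O' x)
    (heff : ∀ x, h x ∈ O' x)
    (hfin : ∀ k, Module.Finite K (L O' h k))
    (hfrac : ∀ z : F, ∃ v : F', v ≠ 0 ∧
      algebraMap F' F v * z ∈ Gam O (hF h) (hF_mem hsub heff)) :
    ∃ m : ℕ, ∀ k : ℕ, m ≤ k →
      Module.finrank F' F * Module.finrank K (L O' h (k - m)) ≤
        Module.finrank K (L O (hF h) k) ∧
      Module.finrank K (L O (hF h) k) ≤
        Module.finrank F' F * Module.finrank K (L O' h (k + m)) := by
  obtain ⟨m, hm⟩ := sandwich hsub htr heff hfin hfrac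
  refine ⟨m, fun k hk => ⟨?_, (hm k).2.2⟩⟩
  have := (hm (k - m)).2.1
  rwa [Nat.sub_add_cancel hk] at this

end Fermat.Agent.JAC.Vol.Sandwich63
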