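/-
JAC / S26 track, chapter VOL (helper64): the core step of the separable Noether normalisation.

`K` a field, `F ⊇ K` a field, `y : Fin (n+1) → F`, `f ≠ 0` a polynomial relation `f(y) = 0`.
With `B` a base (`1 < B`, `totalDegree f < B`) put `y'_i := y_{i+1} - y_0 ^ (B ^ (i+1))`.  Then
`y_0` is a root of a polynomial `G` with coefficients polynomials in `y'` and invertible leading
coefficient; if moreover `(B : K) = 0` and `(∂f/∂X_0)(y) ≠ 0` then `G'(y_0) ≠ 0`.
-/
import Mathlib
import Fermat.Agent.JAC.Vol.NagataShift64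

set_option autoImplicit false

namespace Fermat.Agent.JAC.Vol.SepNoetherCore64

open MvPolynomial
open Fermat.Agent.JAC.Vol.NagataShift64

variable {K : Type*} [Field K] {F : Type*} [Field F] [Algebra K F] {n : ℕ}

/-- `finSuccEquiv` on constants. -/
lemma finSuccEquiv_C' (r : K) :
    MvPolynomial.finSuccEquiv K n (C r) = Polynomial.C (C r) := by
  simp [MvPolynomial.finSuccEquiv_apply]

/-- Evaluating through `finSuccEquiv`. -/
lemma eval₂_finSuccEquiv (z : Fin (n + 1) → F) (h : MvPolynomial (Fin (n + 1)) K) :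
    Polynomial.eval₂ ((aeval (Fin.tail z) : MvPolynomial (Fin n) K →ₐ[K] F) :
        MvPolynomial (Fin n) K →+* F) (z 0) (MvPolynomial.finSuccEquiv K n h) = aeval z h := by
  set φ : MvPolynomial (Fin n) K →+* F :=
    ((aeval (Fin.tail z) : MvPolynomial (Fin n) K →ₐ[K] F) : MvPolynomial (Fin n) K →+* F) with hφ
  have key : (Polynomial.eval₂RingHom φ (z 0)).comp
      ((MvPolynomial.finSuccEquiv K n : MvPolynomial (Fin (n + 1)) K →+* _)) =
      ((aeval z : MvPolynomial (Fin (n + 1)) K →ₐ[K] F) : MvPolynomial (Fin (n + 1)) K →+* F) := by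
    apply MvPolynomial.ringHom_ext
    · intro r
      simp only [RingHom.comp_apply, RingHom.coe_coe, Polynomial.coe_eval₂RingHom,
        finSuccEquiv_C', Polynomial.eval₂_C, hφ, aeval_C]
    · intro i
      refine Fin.cases ?_ (fun j => ?_) i
      · simp only [RingHom.comp_apply, RingHom.coe_coe, Polynomial.coe_eval₂RingHom,
          MvPolynomial.finSuccEquiv_X_zero, Polynomial.eval₂_X, aeval_X]
      · simp only [RingHom.comp_apply, RingHom.coe_coe, Polynomial.coe_eval₂RingHom,
          MvPolynomial.finSuccEquiv_X_succ, Polynomial.eval₂_C, hφ, aeval_X, Fin.tail]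
  exact congrArg (fun g => g h) key

/-- `finSuccEquiv` intertwines `∂/∂X_0` and the derivative, on generators. -/
lemma derivative_finSuccEquiv_X (i : Fin (n + 1)) :
    Polynomial.derivative (MvPolynomial.finSuccEquiv K n (X i)) =
      MvPolynomial.finSuccEquiv K n (pderiv 0 (X i)) := by
  refine Fin.cases ?_ (fun j => ?_) i
  · rw [MvPolynomial.finSuccEquiv_X_zero, pderiv_X, Pi.single_eq_same, map_one,
      Polynomial.derivative_X]
  · rw [MvPolynomial.finSuccEquiv_X_succ, pderiv_X, Pi.single_eq_of_ne (Fin.succ_ne_zero j),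
      map_zero, Polynomial.derivative_C]

/-- `finSuccEquiv` intertwines `∂/∂X_0` and the derivative in the polynomial variable. -/
lemma derivative_finSuccEquiv (h : MvPolynomial (Fin (n + 1)) K) :
    Polynomial.derivative (MvPolynomial.finSuccEquiv K n h) =
      MvPolynomial.finSuccEquiv K n (pderiv 0 h) := by
  induction h using MvPolynomial.induction_on with
  | C a => rw [finSuccEquiv_C', Polynomial.derivative_C, pderiv_C, map_zero]
  | add p q hp hq => rw [map_add, Polynomial.derivative_add, hp, hq, map_add, map_add]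
  | mul_X p i hp =>
    rw [map_mul, Polynomial.derivative_mul, hp, derivative_finSuccEquiv_X, pderiv_mul, map_add,
      map_mul, map_mul]

/-- The Nagata shift on generators. -/
lemma shiftEquiv_X_zero (B : ℕ) :
    shiftEquiv B (X 0 : MvPolynomial (Fin (n + 1)) K) = X 0 := by
  simp

lemma shiftEquiv_X_succ (B : ℕ) (j : Fin n) :
    shiftEquiv B (X j.succ : MvPolynomial (Fin (n + 1)) K) = X j.succ + X 0 ^ (B ^ (j.1 + 1)) := by
  simp [Fin.succ_ne_zero]

/-- If the base `B` vanishes in `K`, the Nagata shift commutes with `∂/∂X_0`, on generators. -/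
lemma pderiv_zero_shiftEquiv_X (B : ℕ) (hBK : (B : K) = 0) (i : Fin (n + 1)) :
    pderiv 0 (shiftEquiv B (X i : MvPolynomial (Fin (n + 1)) K)) =
      shiftEquiv B (pderiv 0 (X i)) := by
  refine Fin.cases ?_ (fun j => ?_) i
  · rw [shiftEquiv_X_zero, pderiv_X, Pi.single_eq_same, map_one]
  · have hBpow : ((B ^ (j.1 + 1) : ℕ) : MvPolynomial (Fin (n + 1)) K) = 0 := by
      have : ((B ^ (j.1 + 1) : ℕ) : K) = 0 := by
        rw [Nat.cast_pow, hBK, zero_pow (Nat.succ_ne_zero _)]
      rw [← map_natCast (C : K →+* MvPolynomial (Fin (n + 1)) K), this, map_zero]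
    rw [shiftEquiv_X_succ, map_add, Derivation.leibniz_pow, pderiv_X, pderiv_X,
      Pi.single_eq_of_ne (Fin.succ_ne_zero j), map_zero, nsmul_eq_mul, hBpow, zero_mul, add_zero]

/-- If the base `B` vanishes in `K`, the Nagata shift commutes with `∂/∂X_0`. -/
lemma pderiv_zero_shiftEquiv (B : ℕ) (hBK : (B : K) = 0)
    (h : MvPolynomial (Fin (n + 1)) K) :
    pderiv 0 (shiftEquiv B h) = shiftEquiv B (pderiv 0 h) := by
  induction h using MvPolynomial.induction_on with
  | C a =>
    have : shiftEquiv B (C a : MvPolynomial (Fin (n + 1)) K) = C a := by simp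
    rw [this, pderiv_C, map_zero]
  | add p q hp hq => rw [map_add, map_add, hp, hq, map_add, map_add]
  | mul_X p i hp =>
    rw [map_mul, pderiv_mul, hp, pderiv_zero_shiftEquiv_X B hBK, pderiv_mul, map_add, map_mul,
      map_mul]

/-- The shifted family. -/
def shiftFam (B : ℕ) (y : Fin (n + 1) → F) : Fin (n + 1) → F :=
  fun i => if i = 0 then y 0 else y i - y 0 ^ (B ^ i.1)

lemma aeval_shiftFam_shiftEquiv (B : ℕ) (y : Fin (n + 1) → F) (h : MvPolynomial (Fin (n + 1)) K) :
    aeval (shiftFam B y) (shiftEquiv B h) = aeval y h := by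
  have key : (aeval (shiftFam B y) : MvPolynomial (Fin (n + 1)) K →ₐ[K] F).comp
      (shift1 B 1) = aeval y := by
    apply MvPolynomial.algHom_ext
    intro i
    by_cases hi : i = 0
    · subst hi; simp [shiftFam]
    · simp [shiftFam, hi]
  exact congrArg (fun g => g h) key

/-- An element which is a simple root of some polynomial is separable. -/
lemma isSeparable_of_aeval_derivative_ne_zero {L E : Type*} [Field L] [Field E] [Algebra L E]
    {a : E} {g : Polynomial L} (h0 : Polynomial.aeval a g = 0)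
    (h1 : Polynomial.aeval a (Polynomial.derivative g) ≠ 0) : IsSeparable L a := by
  have hg : g ≠ 0 := by
    rintro rfl
    simp at h1
  have hint : IsIntegral L a := (IsAlgebraic.isIntegral ⟨g, hg, h0⟩)
  obtain ⟨q, hq⟩ := minpoly.dvd L a h0
  have hder : Polynomial.aeval a (Polynomial.derivative (minpoly L a)) ≠ 0 := by
    intro h
    apply h1
    rw [hq, Polynomial.derivative_mul, map_add, map_mul, map_mul, h, minpoly.aeval, zero_mul,
      zero_mul, add_zero]
  have hne : Polynomial.derivative (minpoly L a) ≠ 0 := by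
    intro h
    rw [h, map_zero] at hder
    exact hder rfl
  exact (Polynomial.separable_iff_derivative_ne_zero (minpoly.irreducible hint)).mpr hne

/-- **Core step.** Data produced from a relation `f(y) = 0`. -/
theorem core_step (B : ℕ) (hB : 1 < B) (y : Fin (n + 1) → F)
    (f : MvPolynomial (Fin (n + 1)) K) (hf0 : f ≠ 0) (hfB : f.totalDegree < B)
    (hfy : aeval y f = 0) :
    ∃ G : Polynomial (MvPolynomial (Fin n) K), IsUnit G.leadingCoeff ∧
      Polynomial.eval₂ ((aeval (Fin.tail (shiftFam B y)) : MvPolynomial (Fin n) K →ₐ[K] F) :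
        MvPolynomial (Fin n) K →+* F) (y 0) G = 0 ∧
      ((B : K) = 0 → aeval y (pderiv 0 f) ≠ 0 →
        Polynomial.eval₂ ((aeval (Fin.tail (shiftFam B y)) : MvPolynomial (Fin n) K →ₐ[K] F) :
          MvPolynomial (Fin n) K →+* F) (y 0) (Polynomial.derivative G) ≠ 0) := by
  have hz0 : shiftFam B y 0 = y 0 := by simp [shiftFam]
  refine ⟨MvPolynomial.finSuccEquiv K n (shiftEquiv B f),
    isUnit_leadingCoeff_finSuccEquiv_shift hB hfB hf0, ?_, ?_⟩
  · rw [← hz0, eval₂_finSuccEquiv, aeval_shiftFam_shiftEquiv, hfy]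
  · intro hBK hder
    rw [derivative_finSuccEquiv, pderiv_zero_shiftEquiv B hBK, ← hz0, eval₂_finSuccEquiv,
      aeval_shiftFam_shiftEquiv]
    exact hder

end Fermat.Agent.JAC.Vol.SepNoetherCore64
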