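/-
JAC / S26 track, chapter VOL (helper64): choosing a good relation.

`K` a perfect field of characteristic `p > 0`, `F ⊇ K` a field, `y : ι → F` algebraically
dependent over `K`.  Then there is a relation `f(y) = 0`, `f ≠ 0`, with `(∂f/∂X_j)(y) ≠ 0` for
some `j` (`exists_relation_pderiv_ne_zero`): take `f` of minimal total degree.
-/
import Mathlib

set_option autoImplicit false

namespace Fermat.Agent.JAC.Vol.SepNoetherRel64

open MvPolynomial

variable {K : Type*} [Field K] {ι : Type*}

/-- If `∂f/∂X_i = 0` in characteristic `p`, all exponents of `X_i` in `f` are divisible by `p`. -/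
lemma dvd_of_pderiv_eq_zero (p : ℕ) [CharP K p] {f : MvPolynomial ι K} {i : ι}
    (h : pderiv i f = 0) {v : ι →₀ ℕ} (hv : v ∈ f.support) : p ∣ v i := by
  classical
  by_cases hvi : v i = 0
  · rw [hvi]; exact dvd_zero _
  have h1 : coeff (v - Finsupp.single i 1) (pderiv i f) = 0 := by rw [h, coeff_zero]
  rw [coeff_pderiv] at h1
  have hvs : v - Finsupp.single i 1 + Finsupp.single i 1 = v := by
    ext j
    by_cases hj : j = i
    · subst hj
      simp only [Finsupp.coe_add, Finsupp.coe_tsub, Pi.add_apply, Pi.sub_apply,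
        Finsupp.single_eq_same]
      omega
    · simp [Finsupp.single_eq_of_ne hj]
  rw [hvs] at h1
  have hc : coeff v f ≠ 0 := mem_support_iff.mp hv
  have h2 : (((v - Finsupp.single i 1 : ι →₀ ℕ) i : ℕ) : K) + 1 = 0 := by
    rcases mul_eq_zero.mp h1 with h | h
    · exact absurd h hc
    · exact h
  have h3 : ((v i : ℕ) : K) = 0 := by
    have : (v - Finsupp.single i 1 : ι →₀ ℕ) i + 1 = v i := by
      simp only [Finsupp.coe_tsub, Pi.sub_apply, Finsupp.single_eq_same]
      omega
    rw [← this, Nat.cast_add, Nat.cast_one]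
    exact h2
  exact (CharP.cast_eq_zero_iff K p (v i)).mp h3

/-- Over a perfect field of characteristic `p`, a polynomial all of whose partial derivatives
vanish is a `p`-th power of a polynomial of total degree at most `totalDegree f / p`. -/
lemma exists_pow_eq_of_pderiv_eq_zero (p : ℕ) [hp : Fact p.Prime] [CharP K p] [PerfectRing K p]
    (f : MvPolynomial ι K) (h : ∀ i, pderiv i f = 0) :
    ∃ g : MvPolynomial ι K, g ^ p = f ∧ g.totalDegree * p ≤ f.totalDegree := by
  classical
  have hp0 : p ≠ 0 := hp.out.ne_zero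
  set g : MvPolynomial ι K := ∑ v ∈ f.support,
    monomial (v.mapRange (· / p) (Nat.zero_div p)) ((frobeniusEquiv K p).symm (coeff v f)) with hg
  have hdiv : ∀ v ∈ f.support, p • v.mapRange (· / p) (Nat.zero_div p) = v := by
    intro v hv
    ext i
    simp only [Finsupp.coe_smul, Pi.smul_apply, Finsupp.mapRange_apply, smul_eq_mul]
    exact Nat.mul_div_cancel' (dvd_of_pderiv_eq_zero p (h i) hv)
  refine ⟨g, ?_, ?_⟩
  · rw [hg, sum_pow_char p]
    conv_rhs => rw [← f.support_sum_monomial_coeff]
    refine Finset.sum_congr rfl (fun v hv => ?_)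
    rw [monomial_pow, hdiv v hv]
    congr 1
    exact frobeniusEquiv_symm_pow_p K p _
  · have hle : g.totalDegree ≤ f.totalDegree / p := by
      rw [hg]
      refine (totalDegree_finsetSum_le (fun v hv => ?_))
      refine (totalDegree_monomial_le _ _).trans ?_
      rw [Nat.le_div_iff_mul_le (Nat.pos_of_ne_zero hp0)]
      have h1 : (v.mapRange (· / p) (Nat.zero_div p)).sum (fun _ e => e) * p =
          v.sum (fun _ e => e) := by
        have h2 := congrArg (fun w : ι →₀ ℕ => w.sum (fun _ e => e)) (hdiv v hv)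
        rw [← h2, Finsupp.sum_smul_index (fun _ => rfl), Finsupp.sum, Finsupp.sum,
          Finset.sum_mul]
        refine Finset.sum_congr rfl (fun i _ => ?_)
        rw [mul_comm]
      change (v.mapRange (· / p) (Nat.zero_div p)).sum (fun _ e => id e) * p ≤ _
      simp only [id]
      rw [h1]
      exact le_totalDegree hv
    calc g.totalDegree * p ≤ (f.totalDegree / p) * p := Nat.mul_le_mul_right p hle
      _ ≤ f.totalDegree := Nat.div_mul_le_self _ _

/-- A nonzero partial derivative has smaller total degree. -/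
lemma totalDegree_pderiv_lt {f : MvPolynomial ι K} {i : ι} (h : pderiv i f ≠ 0) :
    (pderiv i f).totalDegree < f.totalDegree := by
  classical
  obtain ⟨m, hm, hdeg⟩ : ∃ m ∈ (pderiv i f).support,
      (pderiv i f).totalDegree = m.sum (fun _ e => e) := by
    have hne : (pderiv i f).support.Nonempty := support_nonempty.mpr h
    obtain ⟨m, hm, hmax⟩ := Finset.exists_max_image _ (fun m : ι →₀ ℕ => m.sum (fun _ e => e)) hne
    refine ⟨m, hm, le_antisymm ?_ (le_totalDegree hm)⟩
    rw [totalDegree]
    exact Finset.sup_le (fun b hb => hmax b hb)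
  have hc : coeff m (pderiv i f) ≠ 0 := mem_support_iff.mp hm
  rw [coeff_pderiv] at hc
  have hmem : m + Finsupp.single i 1 ∈ f.support :=
    mem_support_iff.mpr (left_ne_zero_of_mul hc)
  have := le_totalDegree hmem
  rw [Finsupp.sum_add_index' (fun _ => rfl) (fun _ _ _ => rfl),
    Finsupp.sum_single_index rfl] at this
  omega

variable {F : Type*} [Field F] [Algebra K F]

/-- **Good relation.** In characteristic `p` over a perfect field, an algebraically dependent
family satisfies a relation one of whose partial derivatives does not vanish on the family. -/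
theorem exists_relation_pderiv_ne_zero (p : ℕ) [hp : Fact p.Prime] [CharP K p] [PerfectRing K p]
    (y : ι → F) (hy : ¬ AlgebraicIndependent K y) :
    ∃ f : MvPolynomial ι K, f ≠ 0 ∧ aeval y f = 0 ∧ ∃ j, aeval y (pderiv j f) ≠ 0 := by
  classical
  rw [algebraicIndependent_iff] at hy
  push Not at hy
  obtain ⟨f0, hf0y, hf0⟩ := hy
  have hex : ∃ d, ∃ f : MvPolynomial ι K, f ≠ 0 ∧ aeval y f = 0 ∧ f.totalDegree = d :=
    ⟨_, f0, hf0, hf0y, rfl⟩
  obtain ⟨f, hfne, hfy, hfd⟩ := Nat.find_spec hex
  have hmin : ∀ g : MvPolynomial ι K, g ≠ 0 → aeval y g = 0 → f.totalDegree ≤ g.totalDegree := by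
    intro g hg hgy
    rw [hfd]
    exact Nat.find_min' hex ⟨g, hg, hgy, rfl⟩
  refine ⟨f, hfne, hfy, ?_⟩
  by_contra hall
  push Not at hall
  -- all partial derivatives vanish identically
  have hder : ∀ i, pderiv i f = 0 := by
    intro i
    by_contra hne
    have := hmin _ hne (hall i)
    exact absurd (totalDegree_pderiv_lt hne) (not_lt.mpr this)
  obtain ⟨g, hgp, hgdeg⟩ := exists_pow_eq_of_pderiv_eq_zero p f hder
  have hg0 : g ≠ 0 := by
    rintro rfl
    rw [zero_pow hp.out.ne_zero] at hgp
    exact hfne hgp.symm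
  have hgy : aeval y g = 0 := by
    have : (aeval y g) ^ p = 0 := by rw [← map_pow, hgp, hfy]
    exact pow_eq_zero_iff hp.out.ne_zero |>.mp this
  have hle := hmin g hg0 hgy
  -- `totalDegree f = 0`, so `f` is a nonzero constant: contradiction
  have hp2 : 2 ≤ p := hp.out.two_le
  have hfd0 : f.totalDegree = 0 := by
    by_contra hpos
    have : g.totalDegree * 2 ≤ g.totalDegree * p := Nat.mul_le_mul_left _ hp2
    omega
  rw [totalDegree_eq_zero_iff_eq_C] at hfd0
  rw [hfd0, aeval_C] at hfy
  have hc : coeff 0 f ≠ 0 := by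
    intro h
    rw [h, map_zero] at hfd0
    exact hfne hfd0
  exact hc ((map_eq_zero (algebraMap K F)).mp hfy)

end Fermat.Agent.JAC.Vol.SepNoetherRel64
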