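/-
JAC / S26 track, chapter VOL (helper64): separable Noether normalisation.

`K` a perfect field, `F ⊇ K` a field, `y : Fin m → F`.  Then there are `x_1,…,x_g` in the
`K`-subalgebra generated by the `y_j`, algebraically independent over `K`, such that every `y_j`
is integral over `K[x]` and separable over `K(x)` (`exists_sep_noether_family`).
Consequently (`exists_sep_noether`): a finitely generated `K`-algebra domain `R` with fraction
field `F` contains algebraically independent `x_1,…,x_g` with `R` integral over `K[x]` and
`F / K(x)` separable algebraic.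
-/
import Mathlib
import Fermat.Agent.JAC.Vol.SepNoetherCore64
import Fermat.Agent.JAC.Vol.SepNoetherRel64

set_option autoImplicit false

namespace Fermat.Agent.JAC.Vol.SepNoether64

open MvPolynomial
open Fermat.Agent.JAC.Vol.SepNoetherCore64 Fermat.Agent.JAC.Vol.SepNoetherRel64

variable {K : Type*} [Field K] {F : Type*} [Field F] [Algebra K F]

/-- `aeval` lands in any subring containing `K` and the family. -/
lemma aeval_mem_subring {n : ℕ} (T : Subring F) (hK : ∀ r : K, algebraMap K F r ∈ T)
    (y' : Fin n → F) (hy' : ∀ i, y' i ∈ T) (a : MvPolynomial (Fin n) K) : aeval y' a ∈ T := by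
  induction a using MvPolynomial.induction_on with
  | C r => rw [aeval_C]; exact hK r
  | add p q hp hq => rw [map_add]; exact T.add_mem hp hq
  | mul_X p i hp => rw [map_mul, aeval_X]; exact T.mul_mem hp (hy' i)

section Transfer

variable {g : ℕ} (x : Fin g → F)

/-- Integrality transfer. -/
lemma mem_integralClosure_of_eval₂ {A : Type*} [CommRing A] (φ : A →+* F)
    (hφ : ∀ a, φ a ∈ integralClosure (Algebra.adjoin K (Set.range x)) F)
    {G : Polynomial A} (hG : IsUnit G.leadingCoeff) {c : F} (hc : Polynomial.eval₂ φ c G = 0) :
    c ∈ integralClosure (Algebra.adjoin K (Set.range x)) F := by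
  set IC := integralClosure (Algebra.adjoin K (Set.range x)) F with hIC
  let cr : A →+* IC := φ.codRestrict IC hφ
  have hmonic : (hG.unit⁻¹ • G).Monic := Polynomial.monic_of_isUnit_leadingCoeff_inv_smul hG
  have hcomp : (algebraMap IC F).comp cr = φ := by ext a; rfl
  have hint : IsIntegral IC c := by
    refine ⟨(hG.unit⁻¹ • G).map cr, hmonic.map cr, ?_⟩
    rw [Polynomial.eval₂_map, hcomp, Units.smul_def, Polynomial.eval₂_smul, hc, mul_zero]
  exact (mem_integralClosure_iff _ _).mpr (isIntegral_trans c hint)

/-- Separability transfer (simple root). -/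
lemma mem_separableClosure_of_eval₂ {A : Type*} [CommRing A] (φ : A →+* F)
    (hφ : ∀ a, φ a ∈ separableClosure (IntermediateField.adjoin K (Set.range x)) F)
    {G : Polynomial A} {c : F} (hc : Polynomial.eval₂ φ c G = 0)
    (hc' : Polynomial.eval₂ φ c (Polynomial.derivative G) ≠ 0) :
    c ∈ separableClosure (IntermediateField.adjoin K (Set.range x)) F := by
  set SC := separableClosure (IntermediateField.adjoin K (Set.range x)) F with hSC
  let cr : A →+* SC := φ.codRestrict SC hφ
  have hcomp : (algebraMap SC F).comp cr = φ := by ext a; rfl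
  have h0 : Polynomial.aeval c (G.map cr) = 0 := by
    rw [Polynomial.aeval_def, Polynomial.eval₂_map, hcomp, hc]
  have h1 : Polynomial.aeval c (Polynomial.derivative (G.map cr)) ≠ 0 := by
    rw [Polynomial.derivative_map, Polynomial.aeval_def, Polynomial.eval₂_map, hcomp]
    exact hc'
  have hsep : IsSeparable SC c := isSeparable_of_aeval_derivative_ne_zero h0 h1
  exact mem_separableClosure_iff.mpr
    (IsSeparable.of_algebra_isSeparable_of_isSeparable
      (IntermediateField.adjoin K (Set.range x)) hsep)

/-- Separability transfer in characteristic zero. -/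
lemma mem_separableClosure_of_eval₂_charZero [CharZero K] {A : Type*} [CommRing A] (φ : A →+* F)
    (hφ : ∀ a, φ a ∈ separableClosure (IntermediateField.adjoin K (Set.range x)) F)
    {G : Polynomial A} (hG : IsUnit G.leadingCoeff) {c : F} (hc : Polynomial.eval₂ φ c G = 0) :
    c ∈ separableClosure (IntermediateField.adjoin K (Set.range x)) F := by
  set SC := separableClosure (IntermediateField.adjoin K (Set.range x)) F with hSC
  let cr : A →+* SC := φ.codRestrict SC hφ
  have hcomp : (algebraMap SC F).comp cr = φ := by ext a; rfl
  have h0 : Polynomial.aeval c (G.map cr) = 0 := by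
    rw [Polynomial.aeval_def, Polynomial.eval₂_map, hcomp, hc]
  have hne : G.map cr ≠ 0 := by
    intro h
    have h2 : (G.map cr).coeff G.natDegree = 0 := by rw [h, Polynomial.coeff_zero]
    rw [Polynomial.coeff_map] at h2
    exact (hG.map cr).ne_zero h2
  have : CharZero F := charZero_of_injective_algebraMap (algebraMap K F).injective
  have : CharZero SC := RingHom.charZero (algebraMap SC F)
  have hint : IsIntegral SC c := IsAlgebraic.isIntegral ⟨G.map cr, hne, h0⟩
  have hsep : IsSeparable SC c := (minpoly.irreducible hint).separable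
  exact mem_separableClosure_iff.mpr
    (IsSeparable.of_algebra_isSeparable_of_isSeparable
      (IntermediateField.adjoin K (Set.range x)) hsep)

end Transfer

section Step

variable {n : ℕ}

/-- `aeval y'` lands in the integral closure of `K[x]` if the `y'_i` do. -/
lemma aeval_mem_integralClosure {g : ℕ} (x : Fin g → F) (y' : Fin n → F)
    (hy' : ∀ i, y' i ∈ integralClosure (Algebra.adjoin K (Set.range x)) F)
    (a : MvPolynomial (Fin n) K) :
    aeval y' a ∈ integralClosure (Algebra.adjoin K (Set.range x)) F := by
  rw [← Subalgebra.mem_toSubring]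
  refine aeval_mem_subring _ (fun r => ?_) y' (fun i => Subalgebra.mem_toSubring.mpr (hy' i)) a
  rw [Subalgebra.mem_toSubring, IsScalarTower.algebraMap_apply K (Algebra.adjoin K (Set.range x)) F]
  exact Subalgebra.algebraMap_mem _ _

/-- `aeval y'` lands in the separable closure of `K(x)` if the `y'_i` do. -/
lemma aeval_mem_separableClosure {g : ℕ} (x : Fin g → F) (y' : Fin n → F)
    (hy' : ∀ i, y' i ∈ separableClosure (IntermediateField.adjoin K (Set.range x)) F)
    (a : MvPolynomial (Fin n) K) :
    aeval y' a ∈ separableClosure (IntermediateField.adjoin K (Set.range x)) F := by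
  set SC := separableClosure (IntermediateField.adjoin K (Set.range x)) F with hSC
  have key : aeval y' a ∈ SC.toSubalgebra.toSubring := by
    refine aeval_mem_subring _ (fun r => ?_) y' (fun i => ?_) a
    · rw [Subalgebra.mem_toSubring, IntermediateField.mem_toSubalgebra,
        IsScalarTower.algebraMap_apply K (IntermediateField.adjoin K (Set.range x)) F]
      exact SC.algebraMap_mem _
    · rw [Subalgebra.mem_toSubring, IntermediateField.mem_toSubalgebra]
      exact hy' i
  rwa [Subalgebra.mem_toSubring, IntermediateField.mem_toSubalgebra] at key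

end Step

/-- **Separable Noether normalisation, family form.** -/
theorem exists_sep_noether_family [PerfectField K] : ∀ (m : ℕ) (y : Fin m → F),
    ∃ (g : ℕ) (x : Fin g → F), (∀ i, x i ∈ Algebra.adjoin K (Set.range y)) ∧
      AlgebraicIndependent K x ∧
      (∀ j, y j ∈ integralClosure (Algebra.adjoin K (Set.range x)) F) ∧
      (∀ j, y j ∈ separableClosure (IntermediateField.adjoin K (Set.range x)) F) := by
  intro m
  induction m with
  | zero =>
    intro y
    exact ⟨0, y, fun i => i.elim0, algebraicIndependent_empty_type, fun j => j.elim0,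
      fun j => j.elim0⟩
  | succ n ih =>
    intro y
    by_cases hy : AlgebraicIndependent K y
    · refine ⟨n + 1, y, fun i => Algebra.subset_adjoin ⟨i, rfl⟩, hy, fun j => ?_, fun j => ?_⟩
      · rw [mem_integralClosure_iff]
        have : y j = algebraMap (Algebra.adjoin K (Set.range y)) F
            ⟨y j, Algebra.subset_adjoin ⟨j, rfl⟩⟩ := rfl
        rw [this]
        exact isIntegral_algebraMap
      · rw [mem_separableClosure_iff]
        have : y j = algebraMap (IntermediateField.adjoin K (Set.range y)) F
            ⟨y j, IntermediateField.subset_adjoin K _ ⟨j, rfl⟩⟩ := rfl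
        rw [this]
        exact isSeparable_algebraMap _
    · obtain ⟨p, hp⟩ := ExpChar.exists K
      -- a relation `f` and an index `j`
      have hrel : ∃ (f : MvPolynomial (Fin (n + 1)) K) (j : Fin (n + 1)), f ≠ 0 ∧ aeval y f = 0 ∧
          (p ≠ 1 → aeval y (pderiv j f) ≠ 0) := by
        cases hp with
        | zero =>
          rw [algebraicIndependent_iff] at hy
          push Not at hy
          obtain ⟨f, hfy, hf0⟩ := hy
          exact ⟨f, 0, hf0, hfy, fun h => absurd rfl h⟩
        | prime hprime =>
          have : Fact p.Prime := ⟨hprime⟩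
          have : PerfectRing K p := PerfectField.toPerfectRing p
          obtain ⟨f, hf0, hfy, j, hj⟩ := exists_relation_pderiv_ne_zero p y hy
          exact ⟨f, j, hf0, hfy, fun _ => hj⟩
      obtain ⟨f, j, hf0, hfy, hfj⟩ := hrel
      -- move `j` to position `0`
      set σ : Equiv.Perm (Fin (n + 1)) := Equiv.swap 0 j with hσ
      have hσσ : ∀ i, σ (σ i) = i := fun i => Equiv.swap_apply_self 0 j i
      set y₁ : Fin (n + 1) → F := y ∘ σ with hy₁
      set f₁ : MvPolynomial (Fin (n + 1)) K := rename σ f with hf₁
      have hy₁σ : y₁ ∘ σ = y := by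
        funext i; simp [hy₁, hσσ]
      have hf₁0 : f₁ ≠ 0 := by
        intro h
        apply hf0
        apply rename_injective σ σ.injective
        rw [← hf₁, h, map_zero]
      have hf₁y : aeval y₁ f₁ = 0 := by
        rw [hf₁, aeval_rename, hy₁σ, hfy]
      have hf₁j : p ≠ 1 → aeval y₁ (pderiv 0 f₁) ≠ 0 := by
        intro hp1
        have h0 : (0 : Fin (n + 1)) = σ j := by rw [hσ, Equiv.swap_apply_right]
        rw [hf₁, h0, pderiv_rename σ.injective, aeval_rename, hy₁σ]
        exact hfj hp1
      -- the base
      have hppos : 0 < p := expChar_pos K p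
      set B : ℕ := p * (2 + f₁.totalDegree) with hB
      have hB1 : 1 < B := by
        have : 1 * (2 + f₁.totalDegree) ≤ p * (2 + f₁.totalDegree) :=
          Nat.mul_le_mul_right _ hppos
        omega
      have hfB : f₁.totalDegree < B := by
        have : 1 * (2 + f₁.totalDegree) ≤ p * (2 + f₁.totalDegree) :=
          Nat.mul_le_mul_right _ hppos
        omega
      obtain ⟨G, hGu, hGroot, hGder⟩ := core_step B hB1 y₁ f₁ hf₁0 hfB hf₁y
      set y' : Fin n → F := Fin.tail (shiftFam B y₁) with hy'
      have hy'i : ∀ i : Fin n, y' i = y₁ i.succ - y₁ 0 ^ (B ^ (i.1 + 1)) := by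
        intro i
        simp [hy', Fin.tail, shiftFam, Fin.succ_ne_zero]
      obtain ⟨g, x, hxmem, hxind, hxint, hxsep⟩ := ih y'
      set φ : MvPolynomial (Fin n) K →+* F :=
        ((aeval y' : MvPolynomial (Fin n) K →ₐ[K] F) : MvPolynomial (Fin n) K →+* F) with hφ
      have hφint : ∀ a, φ a ∈ integralClosure (Algebra.adjoin K (Set.range x)) F :=
        fun a => aeval_mem_integralClosure x y' hxint a
      have hφsep : ∀ a, φ a ∈ separableClosure (IntermediateField.adjoin K (Set.range x)) F :=
        fun a => aeval_mem_separableClosure x y' hxsep a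
      -- `y₁ 0` is integral and separable
      have h0int : y₁ 0 ∈ integralClosure (Algebra.adjoin K (Set.range x)) F :=
        mem_integralClosure_of_eval₂ x φ hφint hGu hGroot
      have h0sep : y₁ 0 ∈ separableClosure (IntermediateField.adjoin K (Set.range x)) F := by
        cases hp with
        | zero => exact mem_separableClosure_of_eval₂_charZero x φ hφsep hGu hGroot
        | prime hprime =>
          have hBK : (B : K) = 0 := by
            rw [hB, Nat.cast_mul, CharP.cast_eq_zero K p, zero_mul]
          exact mem_separableClosure_of_eval₂ x φ hφsep hGroot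
            (hGder hBK (hf₁j hprime.one_lt.ne'))
      -- all `y₁ i`
      have h1int : ∀ i, y₁ i ∈ integralClosure (Algebra.adjoin K (Set.range x)) F := by
        intro i
        refine Fin.cases h0int (fun k => ?_) i
        have : y₁ k.succ = y' k + y₁ 0 ^ (B ^ (k.1 + 1)) := by rw [hy'i]; ring
        rw [this]
        exact Subalgebra.add_mem _ (hxint k) (Subalgebra.pow_mem _ h0int _)
      have h1sep : ∀ i, y₁ i ∈ separableClosure (IntermediateField.adjoin K (Set.range x)) F := by
        intro i
        refine Fin.cases h0sep (fun k => ?_) i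
        have : y₁ k.succ = y' k + y₁ 0 ^ (B ^ (k.1 + 1)) := by rw [hy'i]; ring
        rw [this]
        exact add_mem (hxsep k) (pow_mem h0sep _)
      have hyy₁ : ∀ i, y i = y₁ (σ i) := fun i => by simp [hy₁, hσσ]
      refine ⟨g, x, fun i => ?_, hxind, fun i => ?_, fun i => ?_⟩
      · have hle : Algebra.adjoin K (Set.range y') ≤ Algebra.adjoin K (Set.range y) := by
          apply Algebra.adjoin_le
          rintro _ ⟨k, rfl⟩
          rw [hy'i]
          have hmem : ∀ i, y₁ i ∈ Algebra.adjoin K (Set.range y) :=
            fun i => Algebra.subset_adjoin ⟨σ i, rfl⟩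
          exact Subalgebra.sub_mem _ (hmem _) (Subalgebra.pow_mem _ (hmem _) _)
        exact hle (hxmem i)
      · rw [hyy₁]; exact h1int _
      · rw [hyy₁]; exact h1sep _

/-- **Separable Noether normalisation, subalgebra form.** `Gam` a finitely generated
`K`-subalgebra of a field `F`, `K` perfect.  There are algebraically independent `x_1,…,x_g ∈ Gam`
such that `Gam` is integral over `K[x]` and every element of the field generated by `Gam` is
separable over `K(x)`. -/
theorem exists_sep_noether_subalgebra [PerfectField K] (Gam : Subalgebra K F) (hfg : Gam.FG) :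
    ∃ (g : ℕ) (x : Fin g → F), (∀ i, x i ∈ Gam) ∧ AlgebraicIndependent K x ∧
      (∀ a ∈ Gam, IsIntegral (Algebra.adjoin K (Set.range x)) a) ∧
      (∀ a ∈ IntermediateField.adjoin K (Gam : Set F),
        IsSeparable (IntermediateField.adjoin K (Set.range x)) a) := by
  obtain ⟨t, htfin, ht⟩ := Subalgebra.fg_def.mp hfg
  obtain ⟨m, y, hy⟩ : ∃ (m : ℕ) (y : Fin m → F), Set.range y = t := by
    have := htfin.fintype
    refine ⟨Fintype.card t, fun i => ((Fintype.equivFin t).symm i : F), ?_⟩
    ext a
    constructor
    · rintro ⟨i, rfl⟩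
      exact Subtype.coe_prop _
    · intro ha
      exact ⟨Fintype.equivFin t ⟨a, ha⟩, by simp⟩
  obtain ⟨g, x, hxmem, hxind, hxint, hxsep⟩ := exists_sep_noether_family (K := K) m y
  rw [hy, ht] at hxmem
  have hGam : ∀ a ∈ Gam, ∃ q : MvPolynomial (Fin m) K, aeval y q = a := by
    intro a ha
    rw [← ht, ← hy, Algebra.adjoin_range_eq_range_aeval] at ha
    exact ha
  refine ⟨g, x, hxmem, hxind, fun a ha => ?_, fun a ha => ?_⟩
  · obtain ⟨q, rfl⟩ := hGam a ha
    exact (mem_integralClosure_iff _ _).mp (aeval_mem_integralClosure x y hxint q)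
  · rw [← mem_separableClosure_iff]
    have hle : IntermediateField.adjoin K (Gam : Set F) ≤
        (separableClosure (IntermediateField.adjoin K (Set.range x)) F).restrictScalars K := by
      rw [IntermediateField.adjoin_le_iff]
      intro b hb
      obtain ⟨q, rfl⟩ := hGam b hb
      exact aeval_mem_separableClosure x y hxsep q
    exact hle ha

/-- If moreover `F` is generated as a field by `Gam`, then `F / K(x)` is separable. -/
theorem exists_sep_noether_of_adjoin_eq_top [PerfectField K] (Gam : Subalgebra K F) (hfg : Gam.FG)
    (htop : IntermediateField.adjoin K (Gam : Set F) = ⊤) :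
    ∃ (g : ℕ) (x : Fin g → F), (∀ i, x i ∈ Gam) ∧ AlgebraicIndependent K x ∧
      (∀ a ∈ Gam, IsIntegral (Algebra.adjoin K (Set.range x)) a) ∧
      Algebra.IsSeparable (IntermediateField.adjoin K (Set.range x)) F := by
  obtain ⟨g, x, h1, h2, h3, h4⟩ := exists_sep_noether_subalgebra Gam hfg
  refine ⟨g, x, h1, h2, h3, ⟨fun a => h4 a ?_⟩⟩
  rw [htop]
  exact IntermediateField.mem_top

end Fermat.Agent.JAC.Vol.SepNoether64
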