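import Mathlib
import Fermat.Agent.JAC.Vol.Basic63

/-!
# JAC / S26 track, chapter VOL, brick VOL-low (helper63)

If `Γ = ⋃ L(kD)` contains `g` algebraically independent elements, then `dim L(kD) ≥ c k^g`.
-/

set_option autoImplicit false

namespace Fermat.Agent.JAC.Vol.Low63

open Fermat.Agent.JAC.Vol.Basic63

variable {K F : Type*} [Field K] [Field F] [Algebra K F]
variable {X : Type*} {O : X → Subalgebra K F} {h : X → F}

/-- Monomials with exponents in a box, as elements of `F`. -/
noncomputable def boxMonomial {g : ℕ} (x : Fin g → F) (j : ℕ) (α : Fin g → Fin (j + 1)) : F :=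
  ∏ i, x i ^ (α i : ℕ)

theorem boxMonomial_mem_L {g : ℕ} {x : Fin g → F} {m : ℕ} (hx : ∀ i, x i ∈ L O h m)
    (heff : ∀ y, h y ∈ O y) (j : ℕ) (α : Fin g → Fin (j + 1)) :
    boxMonomial x j α ∈ L O h (m * g * j) := by
  unfold boxMonomial
  -- product over i of x i ^ α i ∈ L (∑ α i * m)
  have key : ∀ s : Finset (Fin g), (∏ i ∈ s, x i ^ (α i : ℕ)) ∈ L O h (∑ i ∈ s, (α i : ℕ) * m) := by
    intro s
    induction s using Finset.induction_on with
    | empty => simpa using one_mem_L_zero (O := O) (h := h)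
    | insert a s ha ih =>
      rw [Finset.prod_insert ha, Finset.sum_insert ha]
      exact mul_mem_L (pow_mem_L (hx a) _) ih
  refine L_mono heff ?_ (key Finset.univ)
  calc ∑ i : Fin g, (α i : ℕ) * m ≤ ∑ _i : Fin g, j * m := by
        apply Finset.sum_le_sum
        intro i _
        have : (α i : ℕ) ≤ j := Nat.lt_succ_iff.mp (α i).2
        gcongr
    _ = m * g * j := by simp; ring

theorem linearIndependent_boxMonomial {g : ℕ} {x : Fin g → F} (hx : AlgebraicIndependent K x)
    (j : ℕ) : LinearIndependent K (boxMonomial x j) := by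
  classical
  -- monomials are linearly independent in `MvPolynomial`, and `aeval x` is injective
  have h1 : LinearIndependent K (fun s : Fin g →₀ ℕ => MvPolynomial.monomial s (1 : K)) :=
    (MvPolynomial.basisMonomials (Fin g) K).linearIndependent
  have h2 : LinearIndependent K
      (fun s : Fin g →₀ ℕ => (MvPolynomial.aeval x).toLinearMap (MvPolynomial.monomial s (1 : K))) :=
    h1.map' _ (LinearMap.ker_eq_bot.mpr hx)
  let ι : (Fin g → Fin (j + 1)) → (Fin g →₀ ℕ) := fun α => Finsupp.equivFunOnFinite.symm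
    (fun i => (α i : ℕ))
  have hι : Function.Injective ι := by
    intro α β hαβ
    funext i
    have := DFunLike.congr_fun hαβ i
    simp only [ι, Finsupp.coe_equivFunOnFinite_symm] at this
    exact Fin.ext this
  have h3 := h2.comp ι hι
  convert h3 using 1
  funext α
  simp only [Function.comp, AlgHom.toLinearMap_apply, MvPolynomial.aeval_monomial, map_one,
    one_mul, boxMonomial, ι]
  rw [Finsupp.prod_fintype]
  · simp
  · intro i; simp

/-- **VOL-low**, cardinal form. -/
theorem exists_le_rank (heff : ∀ y, h y ∈ O y) {g : ℕ} (x : Fin g → F)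
    (hx : AlgebraicIndependent K x) (hxΓ : ∀ i, x i ∈ Gam O h heff) :
    ∃ q : ℕ, 0 < q ∧ ∀ k : ℕ, (((k / q + 1) ^ g : ℕ) : Cardinal) ≤ Module.rank K (L O h k) := by
  obtain ⟨m, hm⟩ := exists_forall_mem_L x hxΓ
  refine ⟨(m + 1) * (g + 1), by positivity, fun k => ?_⟩
  set q := (m + 1) * (g + 1) with hq
  set j := k / q with hj
  have hjk : m * g * j ≤ k := by
    calc m * g * j ≤ q * j := by
          apply Nat.mul_le_mul_right
          rw [hq]
          exact Nat.mul_le_mul (Nat.le_succ m) (Nat.le_succ g)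
      _ ≤ k := Nat.mul_div_le k q
  let v : (Fin g → Fin (j + 1)) → L O h k := fun α =>
    ⟨boxMonomial x j α, L_mono heff hjk (boxMonomial_mem_L hm heff j α)⟩
  have hv : LinearIndependent K v := by
    have := linearIndependent_boxMonomial (K := K) hx j
    exact LinearIndependent.of_comp (L O h k).subtype this
  have h4 := hv.cardinal_lift_le_rank
  have h5 : Cardinal.mk (Fin g → Fin (j + 1)) = (((j + 1) ^ g : ℕ) : Cardinal) := by
    rw [Cardinal.mk_fintype]; simp
  rw [h5, Cardinal.lift_natCast, Cardinal.lift_id'] at h4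
  exact_mod_cast h4

/-- **VOL-low**, `finrank` form, under finite-dimensionality. -/
theorem exists_le_finrank (heff : ∀ y, h y ∈ O y) {g : ℕ} (x : Fin g → F)
    (hx : AlgebraicIndependent K x) (hxΓ : ∀ i, x i ∈ Gam O h heff) :
    ∃ c : ℝ, 0 < c ∧ ∀ k : ℕ, Module.Finite K (L O h k) →
      c * (k : ℝ) ^ g ≤ (Module.finrank K (L O h k) : ℝ) := by
  obtain ⟨q, hq, hrank⟩ := exists_le_rank heff x hx hxΓ
  refine ⟨(1 / (q : ℝ)) ^ g, by positivity, fun k hfin => ?_⟩
  have h1 := hrank k
  rw [← Module.finrank_eq_rank K (L O h k)] at h1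
  have h2 : (k / q + 1) ^ g ≤ Module.finrank K (L O h k) := by exact_mod_cast h1
  have h3 : ((k / q + 1 : ℕ) : ℝ) ^ g ≤ (Module.finrank K (L O h k) : ℝ) := by exact_mod_cast h2
  refine le_trans ?_ h3
  rw [← mul_pow]
  apply pow_le_pow_left₀ (by positivity)
  have hqpos : (0 : ℝ) < q := by exact_mod_cast hq
  rw [one_div, inv_mul_eq_div, div_le_iff₀ hqpos]
  have : k < (k / q + 1) * q := by
    have := Nat.lt_div_mul_add hq (a := k)
    linarith [Nat.div_add_mod k q, Nat.mod_lt k hq, Nat.mul_comm (k / q) q]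
  have : (k : ℝ) < ((k / q + 1 : ℕ) : ℝ) * q := by exact_mod_cast this
  exact this.le

end Fermat.Agent.JAC.Vol.Low63
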