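import Mathlib

/-!
# JAC / S26 track, chapter VOL: counting polynomials of bounded degree (helper63)
-/

set_option autoImplicit false

namespace Fermat.Agent.JAC.Vol.Count63

open MvPolynomial

/-- Exponent vectors bounded by `N` in each coordinate are the same as functions to `Fin (N+1)`. -/
noncomputable def boxEquiv (g N : ℕ) : {f : Fin g →₀ ℕ | ∀ a, f a ≤ N} ≃ (Fin g → Fin (N + 1)) where
  toFun f := fun a => ⟨f.1 a, Nat.lt_succ_of_le (f.2 a)⟩
  invFun α := ⟨Finsupp.equivFunOnFinite.symm (fun a => (α a : ℕ)), fun a => by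
    simpa using Nat.lt_succ_iff.mp (α a).2⟩
  left_inv f := by
    ext a
    simp
  right_inv α := by
    funext a
    simp

theorem card_box (g N : ℕ) : Nat.card {f : Fin g →₀ ℕ | ∀ a, f a ≤ N} = (N + 1) ^ g := by
  rw [Nat.card_congr (boxEquiv g N)]
  simp

variable (K : Type*) [Field K]

theorem finrank_restrictDegree (g N : ℕ) :
    Module.finrank K (restrictDegree (Fin g) K N) = (N + 1) ^ g := by
  have hb := Module.finrank_eq_nat_card_basis (basisRestrictSupport K {n : Fin g →₀ ℕ | ∀ i, n i ≤ N})
  rw [card_box] at hb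
  exact hb

theorem finrank_restrictTotalDegree_le (g N : ℕ) :
    Module.finrank K (restrictTotalDegree (Fin g) K N) ≤ (N + 1) ^ g := by
  rw [← finrank_restrictDegree K g N]
  exact Submodule.finrank_mono (restrictTotalDegree_le_restrictDegree (Fin g) K N)

end Fermat.Agent.JAC.Vol.Count63
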