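import Mathlib

/-!
# JAC / S26 track, chapter VOL: the total-degree valuation on `K(x₁,…,x_g)` (helper63)

`degValP σ K : Valuation (MvPolynomial σ K) ℤᵐ⁰`, `p ↦ exp (totalDegree p)` and its extension
`degVal σ K E` to a fraction field `E` of the polynomial ring.  Its valuation subring is a discrete
valuation ring as soon as `σ` is nonempty.
-/

set_option autoImplicit false

namespace Fermat.Agent.JAC.Vol.DegVal63

open scoped WithZero
open MvPolynomial WithZero

variable (σ K : Type*) [Field K]

open Classical in
/-- The total-degree ("infinity") valuation on the polynomial ring. -/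
noncomputable def degValP : Valuation (MvPolynomial σ K) ℤᵐ⁰ where
  toFun p := if p = 0 then 0 else exp (p.totalDegree : ℤ)
  map_zero' := by simp
  map_one' := by simp
  map_mul' p q := by
    by_cases hp : p = 0
    · simp [hp]
    by_cases hq : q = 0
    · simp [hq]
    simp only [hp, hq, mul_eq_zero, or_self, if_false, totalDegree_mul_of_isDomain hp hq,
      Nat.cast_add, exp_add]
  map_add_le_max' p q := by
    by_cases hp : p = 0
    · simp [hp]
    by_cases hq : q = 0
    · simp [hq]
    by_cases hpq : p + q = 0
    · simp [hpq]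
    simp only [hp, hq, hpq, if_false, le_max_iff, exp_le_exp, Nat.cast_le]
    have := totalDegree_add p q
    exact le_max_iff.mp this

variable {σ K}

theorem degValP_apply {p : MvPolynomial σ K} (hp : p ≠ 0) :
    degValP σ K p = exp (p.totalDegree : ℤ) := by
  classical
  change (if p = 0 then 0 else exp (p.totalDegree : ℤ)) = _
  rw [if_neg hp]

theorem degValP_ne_zero {p : MvPolynomial σ K} (hp : p ≠ 0) : degValP σ K p ≠ 0 := by
  rw [degValP_apply hp]; exact exp_ne_zero

theorem degValP_le_exp_iff {p : MvPolynomial σ K} (hp : p ≠ 0) (N : ℤ) :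
    degValP σ K p ≤ exp N ↔ (p.totalDegree : ℤ) ≤ N := by
  rw [degValP_apply hp, exp_le_exp]

theorem nonZeroDivisors_le_supp_primeCompl :
    nonZeroDivisors (MvPolynomial σ K) ≤ (degValP σ K).supp.primeCompl := by
  intro p hp
  have hp0 : p ≠ 0 := nonZeroDivisors.ne_zero hp
  change p ∉ (degValP σ K).supp
  rw [Valuation.mem_supp_iff]
  exact degValP_ne_zero hp0

variable (σ K) (E : Type*) [Field E] [Algebra (MvPolynomial σ K) E]
  [IsFractionRing (MvPolynomial σ K) E]

/-- The total-degree valuation on the field of rational functions. -/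
noncomputable def degVal : Valuation E ℤᵐ⁰ :=
  (degValP σ K).extendToLocalization nonZeroDivisors_le_supp_primeCompl E

variable {σ K E}

@[simp]
theorem degVal_algebraMap (p : MvPolynomial σ K) :
    degVal σ K E (algebraMap (MvPolynomial σ K) E p) = degValP σ K p :=
  Valuation.extendToLocalization_apply_map_apply _ _ _ _

theorem degVal_algebraMap_of_ne_zero {p : MvPolynomial σ K} (hp : p ≠ 0) :
    degVal σ K E (algebraMap (MvPolynomial σ K) E p) = exp (p.totalDegree : ℤ) := by
  rw [degVal_algebraMap, degValP_apply hp]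

theorem degVal_X (i : σ) :
    degVal σ K E (algebraMap (MvPolynomial σ K) E (X i)) = exp (1 : ℤ) := by
  rw [degVal_algebraMap_of_ne_zero (X_ne_zero i), totalDegree_X]; rfl

/-- A polynomial whose image has valuation `≤ exp N` has total degree `≤ N`. -/
theorem totalDegree_le_of_degVal_le {p : MvPolynomial σ K} {N : ℕ}
    (h : degVal σ K E (algebraMap (MvPolynomial σ K) E p) ≤ exp (N : ℤ)) :
    p.totalDegree ≤ N := by
  by_cases hp : p = 0
  · simp [hp]
  rw [degVal_algebraMap_of_ne_zero hp, exp_le_exp] at h
  exact_mod_cast h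

section DVR

variable [Nonempty σ]

instance nontrivial_valueGroup :
    Nontrivial (MonoidWithZeroHom.valueGroup (MonoidWithZeroHom.ofClass (degVal σ K E))) := by
  obtain ⟨i⟩ := ‹Nonempty σ›
  have hmem : (Units.mk0 (exp (1 : ℤ)) exp_ne_zero : (ℤᵐ⁰)ˣ) ∈
      MonoidWithZeroHom.valueGroup (MonoidWithZeroHom.ofClass (degVal σ K E)) := by
    apply MonoidWithZeroHom.mem_valueGroup
    exact ⟨algebraMap (MvPolynomial σ K) E (X i), degVal_X i⟩
  refine ⟨⟨⟨_, hmem⟩, 1, ?_⟩⟩
  intro h
  have h0 := congrArg Subtype.val h
  have h1 := congrArg Units.val h0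
  simp only [Units.val_mk0, OneMemClass.coe_one, Units.val_one] at h1
  rw [exp_eq_one] at h1
  exact one_ne_zero h1

instance isDiscreteValuationRing :
    IsDiscreteValuationRing (degVal σ K E).valuationSubring :=
  Valuation.valuationSubring_isDiscreteValuationRing _

end DVR

end Fermat.Agent.JAC.Vol.DegVal63
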