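import Mathlib
import Fermat.Agent.JAC.Vol.Basic63

/-!
# JAC / S26 track, chapter VOL: pole bound at infinity (helper63)

`A` a discrete valuation ring with fraction field `E`, `F / E` finite separable, `t ∈ A` a nonzero
nonunit.  If the family of "local rings" `O y ⊆ F` is *proper* (every valuation subring of `F`
containing `K` contains some `O y`), then there is `e` such that `t ^ (e k) • f` is integral
over `A` for every `f ∈ L(kD)`.
-/

set_option autoImplicit false

namespace Fermat.Agent.JAC.Vol.PoleBound63

open scoped WithZero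
open WithZero IsDedekindDomain Fermat.Agent.JAC.Vol.Basic63

/-- Archimedean property of `ℤᵐ⁰`. -/
theorem exists_pow_le_of_lt_one {x y : ℤᵐ⁰} (hx : x < 1) (hy0 : y ≠ 0) :
    ∃ a : ℕ, x ^ a ≤ y := by
  by_cases hx0 : x = 0
  · exact ⟨1, by simp [hx0]⟩
  have hlx : log x < 0 := by
    have := (log_lt_iff_lt_exp hx0 (a := 0)).mpr (by simpa using hx)
    exact this
  refine ⟨(-log y).toNat, ?_⟩
  have hpow0 : x ^ (-log y).toNat ≠ 0 := pow_ne_zero _ hx0
  rw [← log_le_log hpow0 hy0, log_pow, nsmul_eq_mul]
  have h1 : ((-log y).toNat : ℤ) ≥ -log y := Int.self_le_toNat _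
  have h2 : (0 : ℤ) ≤ ((-log y).toNat : ℤ) := Int.natCast_nonneg _
  nlinarith

variable {K F : Type*} [Field K] [Field F] [Algebra K F]
variable {X : Type*} {O : X → Subalgebra K F} {h : X → F}
variable (A E : Type*) [CommRing A] [IsDomain A] [IsDiscreteValuationRing A] [Field E]
  [Algebra A E] [IsFractionRing A E] [Algebra E F] [Algebra A F] [IsScalarTower A E F]
  [FiniteDimensional E F] [Algebra.IsSeparable E F]

include E in
theorem exists_pow_smul_isIntegral (hne : ∀ y, h y ≠ 0) (heff : ∀ y, h y ∈ O y)
    (hprop : ∀ V : ValuationSubring F, (∀ c : K, algebraMap K F c ∈ V) →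
      ∃ y, ∀ f ∈ O y, f ∈ V)
    (hKA : ∀ c : K, IsIntegral A (algebraMap K F c))
    (t : A) (ht0 : t ≠ 0) (ht : ¬ IsUnit t) :
    ∃ e : ℕ, ∀ k : ℕ, ∀ f ∈ L O h k, IsIntegral A (t ^ (e * k) • f) := by
  classical
  let B := integralClosure A F
  have : IsDedekindDomain B := integralClosure.isDedekindDomain A E F
  have : IsFractionRing B F := integralClosure.isFractionRing_of_finite_extension E F
  let tB : B := algebraMap A B t
  have htB0 : tB ≠ 0 := by
    intro h0
    apply ht0
    have hinj : Function.Injective (algebraMap A B) := by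
      have : Function.Injective (algebraMap A F) := by
        rw [IsScalarTower.algebraMap_eq A E F]
        exact (algebraMap E F).injective.comp (IsFractionRing.injective A E)
      intro a b hab
      apply this
      have := congrArg (algebraMap B F) hab
      simpa [← IsScalarTower.algebraMap_apply] using this
    exact hinj (by simpa using h0)
  -- every height one prime of `B` contains `t`
  have hmem : ∀ Q : HeightOneSpectrum B, tB ∈ Q.asIdeal := by
    intro Q
    have hprime : (Q.asIdeal.comap (algebraMap A B)).IsPrime := Ideal.comap_isPrime _ _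
    have hne_bot : Q.asIdeal.comap (algebraMap A B) ≠ ⊥ :=
      Ideal.IsIntegral.comap_ne_bot A Q.ne_bot
    have hmax : (Q.asIdeal.comap (algebraMap A B)).IsMaximal := hprime.isMaximal hne_bot
    have heq := IsLocalRing.eq_maximalIdeal hmax
    have : t ∈ Q.asIdeal.comap (algebraMap A B) := by
      rw [heq]; exact (IsLocalRing.mem_maximalIdeal t).mpr ht
    exact this
  -- hence there are finitely many
  have : Finite (HeightOneSpectrum B) := by
    have hfin := Ideal.finite_factors (R := B) (I := Ideal.span {tB})
      (by simpa [Ideal.zero_eq_bot, Ideal.span_singleton_eq_bot] using htB0)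
    have huniv : {v : HeightOneSpectrum B | v.asIdeal ∣ Ideal.span {tB}} = Set.univ := by
      ext Q
      simp only [Set.mem_ofPred_eq, Set.mem_univ, iff_true]
      rw [Ideal.dvd_span_singleton]
      exact hmem Q
    rw [huniv] at hfin
    exact Set.finite_univ_iff.mp hfin
  cases nonempty_fintype (HeightOneSpectrum B)
  let tF : F := algebraMap A F t
  have htF : tF = algebraMap B F tB := by
    simp only [tF, tB]
    exact IsScalarTower.algebraMap_apply A B F t
  have hwt : ∀ Q : HeightOneSpectrum B, Q.valuation F tF < 1 := by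
    intro Q
    rw [htF]
    exact (HeightOneSpectrum.valuation_lt_one_iff_mem Q tB).mpr (hmem Q)
  -- the valuation rings contain `K`
  have hK : ∀ (Q : HeightOneSpectrum B) (c : K),
      algebraMap K F c ∈ (Q.valuation F).valuationSubring := by
    intro Q c
    rw [Valuation.mem_valuationSubring_iff]
    have : algebraMap K F c = algebraMap B F ⟨algebraMap K F c, hKA c⟩ := rfl
    rw [this]
    exact HeightOneSpectrum.valuation_le_one Q _
  choose y hy using fun Q : HeightOneSpectrum B => hprop _ (hK Q)
  have hwh : ∀ Q : HeightOneSpectrum B, Q.valuation F (h (y Q)) ≤ 1 := fun Q =>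
    (Valuation.mem_valuationSubring_iff _ _).mp (hy Q _ (heff (y Q)))
  have hwh0 : ∀ Q : HeightOneSpectrum B, Q.valuation F (h (y Q)) ≠ 0 := fun Q =>
    (Valuation.ne_zero_iff _).mpr (hne (y Q))
  choose a ha using fun Q : HeightOneSpectrum B => exists_pow_le_of_lt_one (hwt Q) (hwh0 Q)
  refine ⟨∑ Q, a Q, fun k f hf => ?_⟩
  -- membership in `B` via valuations
  have hle : ∀ Q : HeightOneSpectrum B, Q.valuation F (tF ^ ((∑ Q, a Q) * k) * f) ≤ 1 := by
    intro Q
    have h1 : Q.valuation F (f * h (y Q) ^ k) ≤ 1 :=
      (Valuation.mem_valuationSubring_iff _ _).mp (hy Q _ (hf (y Q)))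
    rw [map_mul, map_pow] at h1
    rw [map_mul, map_pow]
    have h2 : Q.valuation F tF ^ ((∑ Q, a Q) * k) ≤ Q.valuation F tF ^ (a Q * k) := by
      apply pow_le_pow_of_le_one zero_le (hwt Q).le
      apply Nat.mul_le_mul_right
      exact Finset.single_le_sum (fun _ _ => Nat.zero_le _) (Finset.mem_univ Q)
    have h3 : Q.valuation F tF ^ (a Q * k) ≤ Q.valuation F (h (y Q)) ^ k := by
      rw [pow_mul]
      exact pow_le_pow_left₀ zero_le (ha Q) k
    calc Q.valuation F tF ^ ((∑ Q, a Q) * k) * Q.valuation F f
        ≤ Q.valuation F (h (y Q)) ^ k * Q.valuation F f := by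
          exact mul_le_mul' (h2.trans h3) le_rfl
      _ = Q.valuation F f * Q.valuation F (h (y Q)) ^ k := mul_comm _ _
      _ ≤ 1 := h1
  obtain ⟨b, hb⟩ := HeightOneSpectrum.mem_integers_of_valuation_le_one F _ hle
  have : t ^ ((∑ Q, a Q) * k) • f = (b : F) := by
    rw [Algebra.smul_def, map_pow]
    exact hb.symm
  rw [this]
  exact b.2

end Fermat.Agent.JAC.Vol.PoleBound63
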