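import Mathlib
import Fermat.Agent.JAC.Vol.Basic63
import Fermat.Agent.JAC.Vol.DegVal63
import Fermat.Agent.JAC.Vol.PoleBound63
import Fermat.Agent.JAC.Vol.Count63

/-!
# JAC / S26 track, chapter VOL, brick VOL-up (helper63)

`dim L(kD) ≤ C k^g` for a proper family of local rings, given a separable Noether normalisation.
-/

set_option autoImplicit false

namespace Fermat.Agent.JAC.Vol.Up63

open scoped WithZero
open WithZero MvPolynomial Fermat.Agent.JAC.Vol.Basic63 Fermat.Agent.JAC.Vol.DegVal63

section common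

variable {R S Rₘ ι : Type*} [CommRing R] [CommRing S] [Algebra R S] [CommRing Rₘ] [Algebra R Rₘ]
  (M : Submonoid R) [IsLocalization M Rₘ] [Algebra Rₘ S] [IsScalarTower R Rₘ S]

/-- Finitely many elements integral over a localisation have a common denominator. -/
theorem exists_common_multiple_integral [Finite ι] (x : ι → S) (hx : ∀ i, IsIntegral Rₘ (x i)) :
    ∃ m : M, ∀ i, IsIntegral R ((m : R) • x i) := by
  classical
  cases nonempty_fintype ι
  choose m hm using fun i => IsIntegral.exists_multiple_integral_of_isLocalization M (x i) (hx i)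
  refine ⟨∏ i, m i, fun i => ?_⟩
  have : ((∏ j, m j : M) : R) = (∏ j ∈ Finset.univ.erase i, (m j : R)) * (m i : R) := by
    rw [Submonoid.coe_finsetProd, Finset.prod_erase_mul _ _ (Finset.mem_univ i)]
  rw [this, mul_smul]
  have h1 : IsIntegral R ((m i : R) • x i) := by
    have := hm i
    rwa [Submonoid.smul_def] at this
  exact h1.smul _

end common

section trace

variable {R E F : Type*} [CommRing R] [Field E] [Field F] [Algebra R E] [IsFractionRing R E]
  [IsIntegrallyClosed R] [Algebra E F] [Algebra R F] [IsScalarTower R E F] [FiniteDimensional E F]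

/-- The trace of a product of integral elements lies in the (integrally closed) base ring. -/
theorem trace_mul_mem_range {z u : F} (hz : IsIntegral R z) (hu : IsIntegral R u) :
    ∃ r : R, algebraMap R E r = Algebra.trace E F (z * u) :=
  IsIntegrallyClosed.isIntegral_iff.mp (Algebra.isIntegral_trace (hz.mul hu))

omit [IsFractionRing R E] [IsIntegrallyClosed R] [FiniteDimensional E F] in
theorem trace_mul_smul (r : R) (z u : F) :
    Algebra.trace E F (z * (r • u)) = algebraMap R E r * Algebra.trace E F (z * u) := by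
  rw [← IsScalarTower.algebraMap_smul E r u, mul_smul_comm, map_smul, smul_eq_mul]

omit [IsFractionRing R E] [IsIntegrallyClosed R] [FiniteDimensional E F] in
theorem trace_smul_mul (r : R) (z u : F) :
    Algebra.trace E F ((r • z) * u) = algebraMap R E r * Algebra.trace E F (z * u) := by
  rw [← IsScalarTower.algebraMap_smul E r z, smul_mul_assoc, map_smul, smul_eq_mul]

end trace

section main

variable {K F : Type*} [Field K] [Field F] [Algebra K F]
variable {Pt : Type*} {O : Pt → Subalgebra K F} {h : Pt → F}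
variable {g : ℕ}
variable {E : Type*} [Field E] [Algebra (MvPolynomial (Fin g) K) E]
  [IsFractionRing (MvPolynomial (Fin g) K) E] [Algebra K E]
  [IsScalarTower K (MvPolynomial (Fin g) K) E]
  [Algebra E F] [Algebra (MvPolynomial (Fin g) K) F]
  [IsScalarTower (MvPolynomial (Fin g) K) E F] [IsScalarTower K E F]

/-- The coordinate map `f ↦ δ · Tr(f b)`, as a `K`-linear map. -/
noncomputable def coord (δ : E) (b : F) : F →ₗ[K] E :=
  (LinearMap.mulLeft K δ) ∘ₗ ((Algebra.trace E F).restrictScalars K) ∘ₗ (LinearMap.mulRight K b)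

omit [IsFractionRing (MvPolynomial (Fin g) K) E] [IsScalarTower K (MvPolynomial (Fin g) K) E]
  [Algebra (MvPolynomial (Fin g) K) F] [IsScalarTower (MvPolynomial (Fin g) K) E F]
  [Algebra (MvPolynomial (Fin g) K) E] in
@[simp]
theorem coord_apply (δ : E) (b f : F) :
    coord (K := K) δ b f = δ * Algebra.trace E F (f * b) := rfl

variable [FiniteDimensional E F] [Algebra.IsSeparable E F] [NeZero g]

omit [NeZero g] [FiniteDimensional E F] [Algebra.IsSeparable E F] [Algebra E F]
  [Algebra (MvPolynomial (Fin g) K) F] [IsScalarTower (MvPolynomial (Fin g) K) E F]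
  [IsScalarTower K E F] in
theorem degVal_algebraMap_K_le_one (c : K) : degVal (Fin g) K E (algebraMap K E c) ≤ 1 := by
  rw [IsScalarTower.algebraMap_apply K (MvPolynomial (Fin g) K) E, degVal_algebraMap,
    MvPolynomial.algebraMap_eq]
  by_cases hc : c = 0
  · simp [hc]
  · rw [degValP_apply (by simpa using hc), totalDegree_C]
    simp

/-- **VOL-up**. -/
theorem exists_finrank_le (hne : ∀ y, h y ≠ 0) (heff : ∀ y, h y ∈ O y)
    (hprop : ∀ V : ValuationSubring F, (∀ c : K, algebraMap K F c ∈ V) →
      ∃ y, ∀ f ∈ O y, f ∈ V)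
    (hint : ∀ f ∈ Gam O h heff, IsIntegral (MvPolynomial (Fin g) K) f) :
    ∃ a b : ℕ, ∀ k : ℕ, Module.Finite K (L O h k) ∧
      Module.finrank K (L O h k) ≤ Module.finrank E F * (a * k + b + 1) ^ g := by
  classical
  let v := degVal (Fin g) K E
  let A := v.valuationSubring
  have hg : 0 < g := Nat.pos_of_ne_zero (NeZero.ne g)
  let i0 : Fin g := ⟨0, hg⟩
  have hX : v (algebraMap (MvPolynomial (Fin g) K) E (X i0)) = exp (1 : ℤ) := degVal_X i0
  let tE : E := (algebraMap (MvPolynomial (Fin g) K) E (X i0))⁻¹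
  have hvt : v tE = exp (-1 : ℤ) := by
    simp only [tE, map_inv₀, hX, exp_neg]
  have htA : tE ∈ A := by
    rw [Valuation.mem_valuationSubring_iff, hvt, ← exp_zero, exp_le_exp]
    norm_num
  let t : A := ⟨tE, htA⟩
  have htE0 : tE ≠ 0 := by
    intro h0
    have := hvt
    rw [h0, map_zero] at this
    exact exp_ne_zero this.symm
  have ht0 : t ≠ 0 := by
    intro h0
    exact htE0 (congrArg Subtype.val h0)
  have htu : ¬ IsUnit t := by
    intro hu
    obtain ⟨u, hu'⟩ := hu.exists_right_inv
    have h1 : tE * (u : E) = 1 := by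
      have := congrArg Subtype.val hu'
      simpa using this
    have h2 : v (u : E) ≤ 1 := (Valuation.mem_valuationSubring_iff v _).mp u.2
    have h3 : v tE * v (u : E) = 1 := by rw [← map_mul, h1, map_one]
    rw [hvt] at h3
    have h4 : v (u : E) = exp (1 : ℤ) := by
      have : exp (-1 : ℤ) * exp (1 : ℤ) = 1 := by rw [← exp_add]; simp
      have hne' : exp (-1 : ℤ) ≠ (0 : ℤᵐ⁰) := exp_ne_zero
      exact mul_left_cancel₀ hne' (h3.trans this.symm)
    rw [h4, ← exp_zero, exp_le_exp] at h2
    norm_num at h2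
  have hKA : ∀ c : K, IsIntegral A (algebraMap K F c) := by
    intro c
    have hmem : algebraMap K E c ∈ A :=
      (Valuation.mem_valuationSubring_iff v _).mpr (degVal_algebraMap_K_le_one c)
    have : algebraMap K F c = algebraMap A F ⟨algebraMap K E c, hmem⟩ := by
      rw [IsScalarTower.algebraMap_apply K E F]
      rfl
    rw [this]
    exact isIntegral_algebraMap
  obtain ⟨e, he⟩ := PoleBound63.exists_pow_smul_isIntegral A E hne heff hprop hKA t ht0 htu
  -- a basis and denominators
  let n := Module.finrank E F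
  let b : Module.Basis (Fin n) E F := Module.finBasis E F
  have hbE : ∀ j, IsIntegral E (b j) := fun j => Algebra.IsIntegral.isIntegral (b j)
  obtain ⟨δ, hδ⟩ := exists_common_multiple_integral (nonZeroDivisors (MvPolynomial (Fin g) K))
    (Rₘ := E) (fun j => b j) hbE
  obtain ⟨d, hd⟩ := exists_common_multiple_integral (nonZeroDivisors A)
    (Rₘ := E) (fun j => b j) hbE
  have hδ0 : (δ : MvPolynomial (Fin g) K) ≠ 0 := nonZeroDivisors.ne_zero δ.2
  have hd0 : (d : A) ≠ 0 := nonZeroDivisors.ne_zero d.2
  have hdE0 : ((d : A) : E) ≠ 0 := fun h0 => hd0 (Subtype.ext h0)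
  have hvd0 : v ((d : A) : E) ≠ 0 := (Valuation.ne_zero_iff v).mpr hdE0
  have hvd1 : v ((d : A) : E) ≤ 1 := (Valuation.mem_valuationSubring_iff v _).mp (d : A).2
  let r : ℕ := (-log (v ((d : A) : E))).toNat
  have hr : exp (-(r : ℤ)) ≤ v ((d : A) : E) := by
    rw [← le_log_iff_exp_le hvd0]
    have : (-log (v ((d : A) : E))) ≤ (r : ℤ) := Int.self_le_toNat _
    linarith
  let D := (δ : MvPolynomial (Fin g) K).totalDegree
  refine ⟨e, D + r, fun k => ?_⟩
  set N := e * k + (D + r) with hN
  let δE : E := algebraMap (MvPolynomial (Fin g) K) E δ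
  have hδE0 : δE ≠ 0 := by
    exact IsFractionRing.to_map_ne_zero_of_mem_nonZeroDivisors δ.2
  let MN : Submodule K E := (restrictTotalDegree (Fin g) K N).map
    ((Algebra.linearMap (MvPolynomial (Fin g) K) E).restrictScalars K)
  have hmem : ∀ f ∈ L O h k, ∀ j, coord (K := K) δE (b j) f ∈ MN := by
    intro f hf j
    have hfP : IsIntegral (MvPolynomial (Fin g) K) f := hint f ⟨k, hf⟩
    obtain ⟨p, hp⟩ := trace_mul_mem_range (R := MvPolynomial (Fin g) K) (E := E) hfP (hδ j)
    rw [trace_mul_smul] at hp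
    refine ⟨p, ?_, hp⟩
    rw [SetLike.mem_coe, mem_restrictTotalDegree]
    apply totalDegree_le_of_degVal_le (E := E)
    rw [hp, map_mul]
    have hA : IsIntegral A (t ^ (e * k) • f) := he k f hf
    obtain ⟨q, hq⟩ := trace_mul_mem_range (R := A) (E := E) hA (hd j)
    rw [trace_smul_mul, trace_mul_smul] at hq
    have hq1 : v (algebraMap A E q) ≤ 1 := (Valuation.mem_valuationSubring_iff v _).mp q.2
    rw [hq, map_mul, map_mul] at hq1
    have ht' : v (algebraMap A E (t ^ (e * k))) = exp (-((e * k : ℕ) : ℤ)) := by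
      have : algebraMap A E (t ^ (e * k)) = tE ^ (e * k) := by
        rw [map_pow]; rfl
      rw [this, map_pow, hvt, ← exp_nsmul]
      simp
    have hd' : algebraMap A E (d : A) = ((d : A) : E) := rfl
    rw [ht', hd'] at hq1
    -- combine
    have hδv : v (algebraMap (MvPolynomial (Fin g) K) E δ) = exp (D : ℤ) :=
      degVal_algebraMap_of_ne_zero hδ0
    rw [hδv]
    set T := v (Algebra.trace E F (f * b j)) with hT
    by_cases hT0 : T = 0
    · rw [hT0, mul_zero]; exact zero_le
    have h5 : exp (-((e * k : ℕ) : ℤ)) * (exp (-(r : ℤ)) * T) ≤ 1 :=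
      le_trans (mul_le_mul' le_rfl (mul_le_mul' hr le_rfl)) hq1
    have h6 : T ≤ exp (((e * k : ℕ) : ℤ) + (r : ℤ)) := by
      rw [← exp_log hT0] at h5 ⊢
      rw [← exp_add, ← exp_add, ← exp_zero, exp_le_exp] at h5
      rw [exp_le_exp]
      linarith
    calc exp (D : ℤ) * T ≤ exp (D : ℤ) * exp (((e * k : ℕ) : ℤ) + (r : ℤ)) :=
          mul_le_mul' le_rfl h6
      _ = exp ((N : ℕ) : ℤ) := by
          rw [← exp_add, hN]
          push_cast
          ring_nf
  -- the injective linear map
  let Ψ : L O h k →ₗ[K] (Fin n → MN) :=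
    LinearMap.pi (fun j => ((coord (K := K) δE (b j)).domRestrict (L O h k)).codRestrict MN
      (fun f => hmem f f.2 j))
  have hΨ : Function.Injective Ψ := by
    rw [← LinearMap.ker_eq_bot, LinearMap.ker_eq_bot']
    intro f hf
    have h0 : ∀ j, Algebra.trace E F ((f : F) * b j) = 0 := by
      intro j
      have hj := congrFun hf j
      have h1 : ((Ψ f j : MN) : E) = 0 := by rw [hj]; rfl
      have h2 : δE * Algebra.trace E F ((f : F) * b j) = 0 := h1
      exact (mul_eq_zero.mp h2).resolve_left hδE0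
    have hnd := traceForm_nondegenerate E F
    have hzero : Algebra.traceForm E F (f : F) = 0 := by
      apply b.ext
      intro j
      simpa [Algebra.traceForm_apply] using h0 j
    have : (f : F) = 0 := hnd.1 (f : F) (fun y => by rw [hzero]; rfl)
    exact Subtype.ext this
  have hfin : Module.Finite K (L O h k) := Module.Finite.of_injective Ψ hΨ
  refine ⟨hfin, ?_⟩
  calc Module.finrank K (L O h k) ≤ Module.finrank K (Fin n → MN) :=
        LinearMap.finrank_le_finrank_of_injective hΨ
    _ = n * Module.finrank K MN := by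
        rw [Module.finrank_pi_fintype K]
        simp
    _ ≤ n * (N + 1) ^ g := by
        apply Nat.mul_le_mul_left
        exact le_trans (Submodule.finrank_map_le _ _) (Count63.finrank_restrictTotalDegree_le K g N)
    _ = Module.finrank E F * (e * k + (D + r) + 1) ^ g := rfl

variable (E) in
include E in
/-- **VOL-up**, in the form `dim L(kD) ≤ C k^g` for `k ≥ 1`. -/
theorem exists_finrank_le_mul_pow (hne : ∀ y, h y ≠ 0) (heff : ∀ y, h y ∈ O y)
    (hprop : ∀ V : ValuationSubring F, (∀ c : K, algebraMap K F c ∈ V) →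
      ∃ y, ∀ f ∈ O y, f ∈ V)
    (hint : ∀ f ∈ Gam O h heff, IsIntegral (MvPolynomial (Fin g) K) f) :
    ∃ C : ℝ, 0 < C ∧ ∀ k : ℕ, 1 ≤ k → Module.Finite K (L O h k) ∧
      (Module.finrank K (L O h k) : ℝ) ≤ C * (k : ℝ) ^ g := by
  obtain ⟨a, b, hab⟩ := exists_finrank_le (E := E) hne heff hprop hint
  have hn : 0 < Module.finrank E F := Module.finrank_pos
  refine ⟨(Module.finrank E F : ℝ) * ((a + b + 1 : ℕ) : ℝ) ^ g, by positivity, fun k hk => ?_⟩
  obtain ⟨hfin, hle⟩ := hab k
  refine ⟨hfin, ?_⟩
  have h1 : a * k + b + 1 ≤ (a + b + 1) * k := by nlinarith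
  have h2 : Module.finrank K (L O h k) ≤ Module.finrank E F * ((a + b + 1) * k) ^ g :=
    hle.trans (Nat.mul_le_mul_left _ (Nat.pow_le_pow_left h1 g))
  have h3 : (Module.finrank K (L O h k) : ℝ) ≤
      ((Module.finrank E F * ((a + b + 1) * k) ^ g : ℕ) : ℝ) := by exact_mod_cast h2
  refine h3.trans (le_of_eq ?_)
  push_cast
  rw [mul_pow]
  ring

end main

end Fermat.Agent.JAC.Vol.Up63
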