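import Mathlib
import Fermat.Agent.JAC.Vol.Up63
import Fermat.Agent.JAC.Vol.Low63

/-!
# JAC / S26 track, chapter VOL: VOL-up / VOL-low for a family `x : Fin g → F` (helper63)

Adapter from the "family" form of a (separable) Noether normalisation
(`x` algebraically independent, `Γ` integral over `K[x]`, `F / K(x)` finite separable, as produced
by `SepNoether64`) to the instance-based form of `Up63.exists_finrank_le`.
-/

set_option autoImplicit false

namespace Fermat.Agent.JAC.Vol.UpFamily63

open MvPolynomial IntermediateField Fermat.Agent.JAC.Vol.Basic63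

variable {K F : Type*} [Field K] [Field F] [Algebra K F]
variable {g : ℕ} (x : Fin g → F)

/-- The family `x`, viewed in `K(x)`. -/
def xE : Fin g → IntermediateField.adjoin K (Set.range x) :=
  fun i => ⟨x i, IntermediateField.subset_adjoin K _ ⟨i, rfl⟩⟩

/-- `K[X₁..X_g] → K(x)`. -/
noncomputable def toE : MvPolynomial (Fin g) K →ₐ[K] IntermediateField.adjoin K (Set.range x) :=
  aeval (xE x)

theorem coe_toE (p : MvPolynomial (Fin g) K) : ((toE x p : IntermediateField.adjoin K (Set.range x)) : F)
    = aeval (R := K) x p := by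
  have : (IntermediateField.val _).comp (toE x) = aeval (R := K) x := by
    apply MvPolynomial.algHom_ext
    intro i
    simp [toE, xE]
  exact DFunLike.congr_fun this p

variable {x}

theorem toE_injective (hx : AlgebraicIndependent K x) : Function.Injective (toE (K := K) x) := by
  intro p q hpq
  apply hx
  rw [← coe_toE, ← coe_toE, hpq]

theorem exists_toE_div (z : IntermediateField.adjoin K (Set.range x)) :
    ∃ p q : MvPolynomial (Fin g) K, z = toE x p / toE x q := by
  obtain ⟨r, hr, s, hs, hz⟩ := IntermediateField.mem_adjoin_iff_div.mp z.2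
  rw [Algebra.adjoin_range_eq_range_aeval] at hr hs
  obtain ⟨p, rfl⟩ := hr
  obtain ⟨q, rfl⟩ := hs
  refine ⟨p, q, Subtype.ext ?_⟩
  rw [hz]
  simp [coe_toE]

variable (x) in
/-- Integrality over the subalgebra `K[x]` is integrality over the polynomial ring acting via `x`. -/
theorem isIntegral_aeval_of_isIntegral_adjoin {f : F}
    (hf : IsIntegral (Algebra.adjoin K (Set.range x)) f) :
    (aeval (R := K) x).toRingHom.IsIntegralElem f := by
  obtain ⟨q, hqm, hq⟩ := hf
  -- the surjection `K[X] → K[x]`
  let ψ : MvPolynomial (Fin g) K →+* Algebra.adjoin K (Set.range x) :=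
    ((aeval (R := K) x).codRestrict (Algebra.adjoin K (Set.range x)) (fun p => by
      rw [Algebra.adjoin_range_eq_range_aeval]; exact ⟨p, rfl⟩)).toRingHom
  have hψ : Function.Surjective ψ := by
    rintro ⟨a, ha⟩
    have ha' := ha
    rw [Algebra.adjoin_range_eq_range_aeval] at ha'
    obtain ⟨p, hp⟩ := ha'
    exact ⟨p, Subtype.ext hp⟩
  obtain ⟨q', hq'map, -, hq'monic⟩ := Polynomial.lifts_and_natDegree_eq_and_monic
    ((Polynomial.mem_lifts (f := ψ) q).mpr (Polynomial.map_surjective ψ hψ q)) hqm
  refine ⟨q', hq'monic, ?_⟩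
  have hcomp : (aeval (R := K) x).toRingHom =
      (algebraMap (Algebra.adjoin K (Set.range x)) F).comp ψ := by
    ext p <;> rfl
  rw [hcomp, ← Polynomial.eval₂_map, hq'map]
  exact hq

section adapter

variable {Pt : Type*} {O : Pt → Subalgebra K F} {h : Pt → F}

/-- **VOL-up, family form.** -/
theorem exists_finrank_le_mul_pow [NeZero g] (hx : AlgebraicIndependent K x)
    [FiniteDimensional (IntermediateField.adjoin K (Set.range x)) F]
    [Algebra.IsSeparable (IntermediateField.adjoin K (Set.range x)) F]
    (hne : ∀ y, h y ≠ 0) (heff : ∀ y, h y ∈ O y)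
    (hprop : ∀ V : ValuationSubring F, (∀ c : K, algebraMap K F c ∈ V) →
      ∃ y, ∀ f ∈ O y, f ∈ V)
    (hint : ∀ f ∈ Gam O h heff, IsIntegral (Algebra.adjoin K (Set.range x)) f) :
    ∃ C : ℝ, 0 < C ∧ ∀ k : ℕ, 1 ≤ k → Module.Finite K (L O h k) ∧
      (Module.finrank K (L O h k) : ℝ) ≤ C * (k : ℝ) ^ g := by
  let : Algebra (MvPolynomial (Fin g) K) (IntermediateField.adjoin K (Set.range x)) :=
    (toE x).toRingHom.toAlgebra
  let : Algebra (MvPolynomial (Fin g) K) F := (aeval (R := K) x).toRingHom.toAlgebra
  have : IsScalarTower (MvPolynomial (Fin g) K) (IntermediateField.adjoin K (Set.range x)) F :=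
    IsScalarTower.of_algebraMap_eq (fun p => (coe_toE x p).symm)
  have : IsScalarTower K (MvPolynomial (Fin g) K) (IntermediateField.adjoin K (Set.range x)) :=
    IsScalarTower.of_algebraMap_eq (fun c => ((toE x).commutes c).symm)
  have : FaithfulSMul (MvPolynomial (Fin g) K) (IntermediateField.adjoin K (Set.range x)) :=
    (faithfulSMul_iff_algebraMap_injective _ _).mpr (toE_injective hx)
  have : IsFractionRing (MvPolynomial (Fin g) K) (IntermediateField.adjoin K (Set.range x)) :=
    IsFractionRing.of_field _ _ (fun z => exists_toE_div z)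
  have hint' : ∀ f ∈ Gam O h heff, IsIntegral (MvPolynomial (Fin g) K) f :=
    fun f hf => isIntegral_aeval_of_isIntegral_adjoin x (hint f hf)
  exact Up63.exists_finrank_le_mul_pow (IntermediateField.adjoin K (Set.range x))
    hne heff hprop hint'

end adapter

end Fermat.Agent.JAC.Vol.UpFamily63
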