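import Mathlib
import Fermat.Agent.JAC.Vol.UpFamily63
import Fermat.Agent.JAC.Vol.SepNoether64

/-!
# JAC / S26 track, chapter VOL: packaged volume growth (helper63)

For a proper family of local rings `O y ⊆ F` over a perfect field `K` and an effective divisor
`h` whose "affine complement" `Γ = ⋃ L(kD)` is a finitely generated `K`-algebra generating `F`:
there is a transcendence basis `x : Fin g → F` of `F / K` and constants `0 < c ≤ C` with
`c k^g ≤ dim L(kD) ≤ C k^g` for all `k ≥ 1`.
-/

set_option autoImplicit false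

namespace Fermat.Agent.JAC.Vol.Growth63

open IntermediateField Fermat.Agent.JAC.Vol.Basic63

variable {K F : Type*} [Field K] [Field F] [Algebra K F]
variable {Pt : Type*} {O : Pt → Subalgebra K F} {h : Pt → F}

/-- `F` is an essentially finitely generated field over `K` if it is generated as a field by a
finitely generated subalgebra. -/
theorem essFiniteType_of_fg (Γ : Subalgebra K F) (hfg : Γ.FG)
    (htop : IntermediateField.adjoin K (Γ : Set F) = ⊤) : Algebra.EssFiniteType K F := by
  rw [← IntermediateField.fg_top_iff]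
  obtain ⟨t, ht⟩ := hfg
  refine ⟨t, ?_⟩
  rw [← htop]
  apply le_antisymm
  · apply IntermediateField.adjoin.mono
    rw [← ht]
    exact Algebra.subset_adjoin
  · rw [IntermediateField.adjoin_le_iff]
    intro a ha
    have : a ∈ Algebra.adjoin K (t : Set F) := by rw [ht]; exact ha
    exact IntermediateField.algebra_adjoin_le_adjoin K _ this

/-- **Volume growth** `c k^g ≤ dim L(kD) ≤ C k^g`, where `g` is the size of a separating
transcendence basis `x` of `F / K` (also exported). -/
theorem exists_growth_sep [PerfectField K] (hne : ∀ y, h y ≠ 0) (heff : ∀ y, h y ∈ O y)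
    (hprop : ∀ V : ValuationSubring F, (∀ c : K, algebraMap K F c ∈ V) →
      ∃ y, ∀ f ∈ O y, f ∈ V)
    (hfg : (Gam O h heff).FG)
    (htop : IntermediateField.adjoin K ((Gam O h heff : Subalgebra K F) : Set F) = ⊤) :
    ∃ (g : ℕ) (x : Fin g → F), (AlgebraicIndependent K x ∧
      Algebra.IsSeparable (IntermediateField.adjoin K (Set.range x)) F ∧
      IsTranscendenceBasis K x) ∧ ∃ c C : ℝ, 0 < c ∧ 0 < C ∧
      ∀ k : ℕ, 1 ≤ k → Module.Finite K (L O h k) ∧
        c * (k : ℝ) ^ g ≤ (Module.finrank K (L O h k) : ℝ) ∧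
        (Module.finrank K (L O h k) : ℝ) ≤ C * (k : ℝ) ^ g := by
  obtain ⟨g, x, hxΓ, hxind, hxint, hsep⟩ :=
    SepNoether64.exists_sep_noether_of_adjoin_eq_top (Gam O h heff) hfg htop
  have hess : Algebra.EssFiniteType K F := essFiniteType_of_fg _ hfg htop
  have hess' : Algebra.EssFiniteType (IntermediateField.adjoin K (Set.range x)) F :=
    Algebra.EssFiniteType.of_comp K _ F
  have hfd : FiniteDimensional (IntermediateField.adjoin K (Set.range x)) F :=
    Algebra.finite_of_essFiniteType_of_isAlgebraic
  have htb : IsTranscendenceBasis K x := by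
    rw [hxind.isTranscendenceBasis_iff_isAlgebraic]
    open scoped IntermediateField.algebraAdjoinAdjoin in
    exact (IsFractionRing.comap_isAlgebraic_iff
      (K := IntermediateField.adjoin K (Set.range x))).mpr inferInstance
  refine ⟨g, x, ⟨hxind, hsep, htb⟩, ?_⟩
  obtain ⟨c, hc, hlow⟩ := Low63.exists_le_finrank heff x hxind hxΓ
  rcases Nat.eq_zero_or_pos g with hg | hg
  · -- `g = 0`: `F` is finite over `K`
    subst hg
    have hrange : Set.range x = ∅ := Set.range_eq_empty x
    have hbot : IntermediateField.adjoin K (Set.range x) = ⊥ := by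
      rw [hrange]; exact IntermediateField.adjoin_empty K F
    have hfinKF : FiniteDimensional K F := by
      have h1 : Module.Finite K (IntermediateField.adjoin K (Set.range x)) := by
        rw [hbot]; infer_instance
      exact Module.Finite.trans (IntermediateField.adjoin K (Set.range x)) F
    have hpos : 0 < Module.finrank K F := Module.finrank_pos
    refine ⟨c, Module.finrank K F, hc, by exact_mod_cast hpos, fun k _ => ?_⟩
    have hfin : Module.Finite K (L O h k) := inferInstance
    refine ⟨hfin, hlow k hfin, ?_⟩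
    simp only [pow_zero, mul_one]
    exact_mod_cast Submodule.finrank_le (L O h k)
  · have : NeZero g := ⟨hg.ne'⟩
    obtain ⟨C, hC, hup⟩ := UpFamily63.exists_finrank_le_mul_pow hxind hne heff hprop hxint
    refine ⟨c, C, hc, hC, fun k hk => ?_⟩
    obtain ⟨hfin, hle⟩ := hup k hk
    exact ⟨hfin, hlow k hfin, hle⟩

/-- **Volume growth** `c k^g ≤ dim L(kD) ≤ C k^g`, `g = trdeg (F / K)`. -/
theorem exists_growth [PerfectField K] (hne : ∀ y, h y ≠ 0) (heff : ∀ y, h y ∈ O y)
    (hprop : ∀ V : ValuationSubring F, (∀ c : K, algebraMap K F c ∈ V) →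
      ∃ y, ∀ f ∈ O y, f ∈ V)
    (hfg : (Gam O h heff).FG)
    (htop : IntermediateField.adjoin K ((Gam O h heff : Subalgebra K F) : Set F) = ⊤) :
    ∃ (g : ℕ) (x : Fin g → F), IsTranscendenceBasis K x ∧ ∃ c C : ℝ, 0 < c ∧ 0 < C ∧
      ∀ k : ℕ, 1 ≤ k → Module.Finite K (L O h k) ∧
        c * (k : ℝ) ^ g ≤ (Module.finrank K (L O h k) : ℝ) ∧
        (Module.finrank K (L O h k) : ℝ) ≤ C * (k : ℝ) ^ g := by
  obtain ⟨g, x, ⟨-, -, htb⟩, hrest⟩ := exists_growth_sep hne heff hprop hfg htop
  exact ⟨g, x, htb, hrest⟩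

end Fermat.Agent.JAC.Vol.Growth63
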