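import Mathlib
import Fermat.Agent.JAC.Vol.UpFamily63

/-!
# JAC / S26 track, brick TRDEG, algebra part (helper63)

* `rank_kaehler_of_fractionRing`: `B` standard smooth of relative dimension `g` over a field `K`,
  `F = Frac B`  ⇒  `rank_F Ω[F⁄K] = g`.
* `rank_kaehler_of_separating`: `x : Fin m → F` algebraically independent over `K` with
  `F / K(x)` separable  ⇒  `rank_F Ω[F⁄K] = m`.
* `eq_of_separating_of_standardSmooth`: hence `m = g`.
-/

set_option autoImplicit false

namespace Fermat.Agent.JAC.Vol.KaehlerRank63

open TensorProduct KaehlerDifferential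

universe u v w

section baseChange

variable (R : Type u) (S : Type v) (T : Type w) [CommRing R] [CommRing S] [CommRing T]
  [Algebra R S] [Algebra R T] [Algebra S T] [IsScalarTower R S T]

/-- Rank of differentials after a formally étale base change (natural number ranks). -/
theorem rank_kaehler_of_formallyEtale [Algebra.FormallyEtale S T] [Nontrivial S] [Nontrivial T]
    [Module.Free S Ω[S⁄R]] (n : ℕ) (h : Module.rank S Ω[S⁄R] = n) :
    Module.rank T Ω[T⁄R] = n := by
  have e := tensorKaehlerEquivOfFormallyEtale R S T
  have h1 := e.lift_rank_eq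
  rw [Module.rank_baseChange, h] at h1
  simp only [Cardinal.lift_natCast] at h1
  have h2 : Cardinal.lift.{max w v} (Module.rank T Ω[T⁄R]) = Cardinal.lift.{max w v} (n : Cardinal.{w}) := by
    rw [Cardinal.lift_natCast]; exact h1.symm
  exact Cardinal.lift_injective h2

end baseChange

section smooth

variable (K : Type u) (B : Type v) (F : Type w) [Field K] [CommRing B] [IsDomain B] [Field F]
  [Algebra K B] [Algebra B F] [IsFractionRing B F] [Algebra K F] [IsScalarTower K B F]

/-- **(T2)** -/
theorem rank_kaehler_of_fractionRing (g : ℕ) [Algebra.IsStandardSmoothOfRelativeDimension g K B] :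
    Module.rank F Ω[F⁄K] = g := by
  have : Algebra.IsStandardSmooth K B :=
    Algebra.IsStandardSmoothOfRelativeDimension.isStandardSmooth g
  have : Algebra.FormallyEtale B F := Algebra.FormallyEtale.of_isLocalization (nonZeroDivisors B)
  exact rank_kaehler_of_formallyEtale K B F g
    (Algebra.IsStandardSmoothOfRelativeDimension.rank_kaehlerDifferential g)

end smooth

section separating

open MvPolynomial Fermat.Agent.JAC.Vol.UpFamily63

variable {K : Type u} {F : Type v} [Field K] [Field F] [Algebra K F]

/-- **(T1)** -/
theorem rank_kaehler_of_separating {m : ℕ} (x : Fin m → F) (hx : AlgebraicIndependent K x)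
    [Algebra.IsSeparable (IntermediateField.adjoin K (Set.range x)) F] :
    Module.rank F Ω[F⁄K] = m := by
  let : Algebra (MvPolynomial (Fin m) K) (IntermediateField.adjoin K (Set.range x)) :=
    (toE x).toRingHom.toAlgebra
  let : Algebra (MvPolynomial (Fin m) K) F := (aeval (R := K) x).toRingHom.toAlgebra
  have : IsScalarTower (MvPolynomial (Fin m) K) (IntermediateField.adjoin K (Set.range x)) F :=
    IsScalarTower.of_algebraMap_eq (fun p => (coe_toE x p).symm)
  have : IsScalarTower K (MvPolynomial (Fin m) K) F :=
    IsScalarTower.of_algebraMap_eq (fun c => ((aeval (R := K) x).commutes c).symm)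
  have : FaithfulSMul (MvPolynomial (Fin m) K) (IntermediateField.adjoin K (Set.range x)) :=
    (faithfulSMul_iff_algebraMap_injective _ _).mpr (toE_injective hx)
  have : IsFractionRing (MvPolynomial (Fin m) K) (IntermediateField.adjoin K (Set.range x)) :=
    IsFractionRing.of_field _ _ (fun z => exists_toE_div z)
  have : Algebra.FormallyEtale (MvPolynomial (Fin m) K)
      (IntermediateField.adjoin K (Set.range x)) :=
    Algebra.FormallyEtale.of_isLocalization (nonZeroDivisors (MvPolynomial (Fin m) K))
  have : Algebra.FormallyEtale (IntermediateField.adjoin K (Set.range x)) F :=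
    Algebra.FormallyEtale.of_isSeparable _ F
  have : Algebra.FormallyEtale (MvPolynomial (Fin m) K) F :=
    Algebra.FormallyEtale.comp _ (IntermediateField.adjoin K (Set.range x)) _
  refine rank_kaehler_of_formallyEtale K (MvPolynomial (Fin m) K) F m ?_
  rw [rank_eq_card_basis (mvPolynomialBasis K (Fin m))]
  simp

/-- **(T3)** The size of a separating transcendence basis of the fraction field of a standard
smooth `K`-algebra of relative dimension `g` is `g`. -/
theorem eq_of_separating_of_standardSmooth (B : Type w) [CommRing B] [IsDomain B] [Algebra K B]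
    [Algebra B F] [IsFractionRing B F] [IsScalarTower K B F] (g : ℕ)
    [Algebra.IsStandardSmoothOfRelativeDimension g K B]
    {m : ℕ} (x : Fin m → F) (hx : AlgebraicIndependent K x)
    [Algebra.IsSeparable (IntermediateField.adjoin K (Set.range x)) F] : m = g := by
  have h1 := rank_kaehler_of_separating x hx
  have h2 := rank_kaehler_of_fractionRing K B F g
  rw [h1] at h2
  exact_mod_cast h2

end separating

end Fermat.Agent.JAC.Vol.KaehlerRank63
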