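import Mathlib
import Fermat.Agent.JAC.Vol.KaehlerRank63
import Fermat.Agent.JAC.Div2.CaDiv69

/-!
# JAC / S26 track, brick TRDEG, scheme glue (helper63)

For an integral `K`-scheme `A`, smooth of relative dimension `g`, every separating transcendence
basis `x : Fin m → K(A)` of the function field has `m = g`.
-/

set_option autoImplicit false

namespace Fermat.Agent.JAC.Vol.TrdegSmooth63

open AlgebraicGeometry CategoryTheory Fermat.Agent.JAC.Div2.CaDiv69

universe u

variable {K : Type u} [Field K] {A : Scheme.{u}} [IsIntegral A]
  (f : A ⟶ Spec (CommRingCat.of K))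

theorem eq_top_of_mem (U : (Spec (CommRingCat.of K)).Opens) (x : Spec (CommRingCat.of K))
    (hx : x ∈ U) : U = ⊤ := by
  ext y
  simp only [TopologicalSpace.Opens.coe_top, Set.mem_univ, iff_true]
  rw [Subsingleton.elim y x]; exact hx

/-- The structure map `K → Γ(A, V)`. -/
noncomputable def toSections (V : A.Opens) : K →+* Γ(A, V) :=
  (f.appLE ⊤ V le_top).hom.comp (Scheme.ΓSpecIso (CommRingCat.of K)).inv.hom

theorem germ_toSections (V : A.Opens) [Nonempty V] (c : K) :
    (A.germToFunctionField V).hom (toSections f V c) = toFunctionFieldOfHom f c := by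
  have h1 : f.appLE ⊤ V le_top = f.appTop ≫ A.presheaf.map (homOfLE (le_top : V ≤ ⊤)).op := rfl
  have h2 := TopCat.Presheaf.germ_res A.presheaf (homOfLE (le_top : V ≤ ⊤)) (genericPoint A)
    (((genericPoint_spec A).mem_open_set_iff V.isOpen).mpr (by simpa using ‹Nonempty V›))
  unfold toSections toFunctionFieldOfHom
  rw [h1]
  simp only [RingHom.comp_apply, CommRingCat.hom_comp]
  set s := (Scheme.Hom.appTop f).hom ((Scheme.ΓSpecIso (CommRingCat.of K)).inv.hom c) with hs
  have h3 := congrArg (fun φ => φ.hom s) h2
  simpa only [CommRingCat.hom_comp, RingHom.comp_apply] using h3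

/-- **(T4)** On an integral `K`-scheme, smooth of relative dimension `g`, every separating
transcendence basis of the function field has `g` elements. -/
theorem eq_relDim_of_separating (g : ℕ) [SmoothOfRelativeDimension g f]
    [Algebra K A.functionField]
    (halg : algebraMap K A.functionField = toFunctionFieldOfHom f)
    {m : ℕ} (x : Fin m → A.functionField) (hx : AlgebraicIndependent K x)
    [Algebra.IsSeparable (IntermediateField.adjoin K (Set.range x)) A.functionField] :
    m = g := by
  obtain ⟨U, -, V, hV, hxV, e, hsm⟩ :=
    SmoothOfRelativeDimension.exists_isStandardSmoothOfRelativeDimension (n := g) (f := f)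
      (genericPoint A)
  have hU : U = ⊤ := eq_top_of_mem U _ (e hxV)
  subst hU
  have : Nonempty V := ⟨⟨genericPoint A, hxV⟩⟩
  have hfrac : IsFractionRing Γ(A, V) A.functionField :=
    functionField_isFractionRing_of_isAffineOpen A V hV
  -- the `K`-algebra structure on `Γ(A, V)`
  have hsm' : (toSections f V).IsStandardSmoothOfRelativeDimension g :=
    RingHom.isStandardSmoothOfRelativeDimension_respectsIso.right _
      (Scheme.ΓSpecIso (CommRingCat.of K)).symm.commRingCatIsoToRingEquiv hsm
  let : Algebra K Γ(A, V) := (toSections f V).toAlgebra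
  have : Algebra.IsStandardSmoothOfRelativeDimension g K Γ(A, V) := hsm'
  have : IsScalarTower K Γ(A, V) A.functionField := by
    refine IsScalarTower.of_algebraMap_eq (fun c => ?_)
    rw [halg]
    exact (germ_toSections f V c).symm
  exact KaehlerRank63.eq_of_separating_of_standardSmooth (K := K) (F := A.functionField)
    Γ(A, V) g x hx

end Fermat.Agent.JAC.Vol.TrdegSmooth63
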