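import Mathlib

/-!
# JAC / S26 track, chapter VOL, brick ARITH (helper63)

Pure real analysis: from the volume growth `c k^g ≤ a k ≤ C k^g` of `a k = dim L(kD)`, the
sandwich `d · a (e k - m) ≤ a (e n² k) ≤ d · a (e k + m)` and multiplicativity of `d` one gets
`d = n ^ (2 g)`.
-/

set_option autoImplicit false

namespace Fermat.Agent.JAC.Vol.Arith63

open Filter Topology

/-- Rigidity: if `x ^ j` and `y ^ j` stay within a bounded ratio of each other for all `j`,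
then `x = y`. -/
theorem eq_of_forall_pow_le {x y B : ℝ} (hx : 0 ≤ x) (hy : 0 < y)
    (h1 : ∀ j : ℕ, x ^ j ≤ B * y ^ j) (h2 : ∀ j : ℕ, y ^ j ≤ B * x ^ j) : x = y := by
  have hxpos : 0 < x := by
    rcases hx.eq_or_lt with h0 | h0
    · have := h2 1
      rw [← h0] at this
      simp at this
      linarith
    · exact h0
  by_contra hne
  rcases lt_or_gt_of_ne hne with hlt | hgt
  · -- x < y : (y/x)^j unbounded
    have hr : 1 < y / x := (one_lt_div hxpos).mpr hlt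
    obtain ⟨j, hj⟩ := pow_unbounded_of_one_lt B hr
    have := h2 j
    rw [div_pow, lt_div_iff₀ (pow_pos hxpos j)] at hj
    linarith
  · have hr : 1 < x / y := (one_lt_div hy).mpr hgt
    obtain ⟨j, hj⟩ := pow_unbounded_of_one_lt B hr
    have := h1 j
    rw [div_pow, lt_div_iff₀ (pow_pos hy j)] at hj
    linarith

theorem tendsto_const_div_mul (e m : ℕ) (he : 0 < e) :
    Tendsto (fun k : ℕ => (m : ℝ) / ((e : ℝ) * k)) atTop (𝓝 0) := by
  have he' : (0 : ℝ) < e := by exact_mod_cast he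
  have : Tendsto (fun k : ℕ => (e : ℝ) * k) atTop atTop :=
    Tendsto.const_mul_atTop he' tendsto_natCast_atTop_atTop
  exact Tendsto.div_atTop tendsto_const_nhds this

/-- `((e k) / (e k - m)) ^ g → 1`. -/
theorem tendsto_ratio_sub (e m g : ℕ) (he : 0 < e) :
    Tendsto (fun k : ℕ => (((e : ℝ) * k) / ((e : ℝ) * k - m)) ^ g) atTop (𝓝 1) := by
  have he' : (0 : ℝ) < e := by exact_mod_cast he
  have h1 := tendsto_const_div_mul e m he
  have h2 : Tendsto (fun k : ℕ => (1 - (m : ℝ) / ((e : ℝ) * k))⁻¹ ^ g) atTop (𝓝 1) := by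
    have : Tendsto (fun k : ℕ => (1 - (m : ℝ) / ((e : ℝ) * k))) atTop (𝓝 (1 - 0)) :=
      tendsto_const_nhds.sub h1
    rw [sub_zero] at this
    have h3 := (this.inv₀ one_ne_zero).pow g
    simpa using h3
  refine h2.congr' ?_
  filter_upwards [eventually_gt_atTop 0] with k hk
  have hk' : (0 : ℝ) < (e : ℝ) * k := mul_pos he' (by exact_mod_cast hk)
  congr 1
  rw [one_sub_div hk'.ne', inv_div]

/-- `((e k) / (e k + m)) ^ g → 1`. -/
theorem tendsto_ratio_add (e m g : ℕ) (he : 0 < e) :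
    Tendsto (fun k : ℕ => (((e : ℝ) * k) / ((e : ℝ) * k + m)) ^ g) atTop (𝓝 1) := by
  have he' : (0 : ℝ) < e := by exact_mod_cast he
  have h1 := tendsto_const_div_mul e m he
  have h2 : Tendsto (fun k : ℕ => (1 + (m : ℝ) / ((e : ℝ) * k))⁻¹ ^ g) atTop (𝓝 1) := by
    have : Tendsto (fun k : ℕ => (1 + (m : ℝ) / ((e : ℝ) * k))) atTop (𝓝 (1 + 0)) :=
      tendsto_const_nhds.add h1
    rw [add_zero] at this
    have h3 := (this.inv₀ one_ne_zero).pow g
    simpa using h3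
  refine h2.congr' ?_
  filter_upwards [eventually_gt_atTop 0] with k hk
  have hk' : (0 : ℝ) < (e : ℝ) * k := mul_pos he' (by exact_mod_cast hk)
  congr 1
  rw [one_add_div hk'.ne', inv_div]

section bounds

variable {a : ℕ → ℕ} {g : ℕ} {c C : ℝ} {k0 : ℕ}

/-- Upper bound for `d` from the left half of the sandwich. -/
theorem le_of_sandwich_left (hc : 0 < c)
    (hlow : ∀ k, k0 ≤ k → c * (k : ℝ) ^ g ≤ a k)
    (hup : ∀ k, k0 ≤ k → (a k : ℝ) ≤ C * (k : ℝ) ^ g)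
    {d n e m k1 : ℕ} (hn : 0 < n) (he : 0 < e)
    (h : ∀ k, k1 ≤ k → d * a (e * k - m) ≤ a (e * n ^ 2 * k)) :
    (d : ℝ) ≤ C / c * (n : ℝ) ^ (2 * g) := by
  have he' : (0 : ℝ) < e := by exact_mod_cast he
  have hev : ∀ᶠ k : ℕ in atTop,
      (d : ℝ) ≤ C / c * (n : ℝ) ^ (2 * g) * (((e : ℝ) * k) / ((e : ℝ) * k - m)) ^ g := by
    filter_upwards [eventually_ge_atTop k1, eventually_ge_atTop (k0 + m + 1)] with k hk1 hk2
    have hek : k ≤ e * k := Nat.le_mul_of_pos_left k he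
    have hm : m ≤ e * k := by omega
    have hk0 : k0 ≤ e * k - m := by omega
    have hk0' : k0 ≤ e * n ^ 2 * k := by
      have : e * k ≤ e * n ^ 2 * k := by
        have : 1 ≤ n ^ 2 := Nat.one_le_pow _ _ hn
        calc e * k = e * 1 * k := by ring
          _ ≤ e * n ^ 2 * k := by gcongr
      omega
    have hpos : (0 : ℝ) < (e : ℝ) * k - m := by
      have : (m : ℝ) + 1 ≤ (e : ℝ) * k := by
        have : m + 1 ≤ e * k := by omega
        exact_mod_cast this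
      linarith
    have hcast : ((e * k - m : ℕ) : ℝ) = (e : ℝ) * k - m := by
      rw [Nat.cast_sub hm]; push_cast; ring
    have h1 := h k hk1
    have h1' : (d : ℝ) * (a (e * k - m) : ℝ) ≤ (a (e * n ^ 2 * k) : ℝ) := by exact_mod_cast h1
    have h2 := hlow _ hk0
    rw [hcast] at h2
    have hdnn : (0 : ℝ) ≤ d := Nat.cast_nonneg d
    have h3 := hup _ hk0'
    have h4 : (d : ℝ) * (c * ((e : ℝ) * k - m) ^ g) ≤ C * ((e : ℝ) * n ^ 2 * k) ^ g := by
      calc (d : ℝ) * (c * ((e : ℝ) * k - m) ^ g) ≤ d * (a (e * k - m) : ℝ) := by gcongr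
        _ ≤ (a (e * n ^ 2 * k) : ℝ) := h1'
        _ ≤ C * (((e * n ^ 2 * k : ℕ) : ℝ)) ^ g := h3
        _ = C * ((e : ℝ) * n ^ 2 * k) ^ g := by push_cast; ring
    have hpg : (0 : ℝ) < ((e : ℝ) * k - m) ^ g := pow_pos hpos g
    have h5 : (d : ℝ) ≤ C * ((e : ℝ) * n ^ 2 * k) ^ g / (c * ((e : ℝ) * k - m) ^ g) := by
      rw [le_div_iff₀ (mul_pos hc hpg)]; exact h4
    calc (d : ℝ) ≤ C * ((e : ℝ) * n ^ 2 * k) ^ g / (c * ((e : ℝ) * k - m) ^ g) := h5
      _ = C / c * (n : ℝ) ^ (2 * g) * (((e : ℝ) * k) / ((e : ℝ) * k - m)) ^ g := by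
          rw [div_pow, pow_mul]
          have : ((e : ℝ) * n ^ 2 * k) ^ g = ((n : ℝ) ^ 2) ^ g * ((e : ℝ) * k) ^ g := by
            rw [← mul_pow]; ring_nf
          rw [this]
          field_simp
  have hlim : Tendsto (fun k : ℕ =>
      C / c * (n : ℝ) ^ (2 * g) * (((e : ℝ) * k) / ((e : ℝ) * k - m)) ^ g) atTop
      (𝓝 (C / c * (n : ℝ) ^ (2 * g) * 1)) :=
    (tendsto_ratio_sub e m g he).const_mul _
  rw [mul_one] at hlim
  exact ge_of_tendsto hlim hev

/-- Lower bound for `d` from the right half of the sandwich. -/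
theorem ge_of_sandwich_right (hc : 0 < c) (hC : 0 < C)
    (hlow : ∀ k, k0 ≤ k → c * (k : ℝ) ^ g ≤ a k)
    (hup : ∀ k, k0 ≤ k → (a k : ℝ) ≤ C * (k : ℝ) ^ g)
    {d n e m k1 : ℕ} (hn : 0 < n) (he : 0 < e)
    (h : ∀ k, k1 ≤ k → a (e * n ^ 2 * k) ≤ d * a (e * k + m)) :
    c / C * (n : ℝ) ^ (2 * g) ≤ (d : ℝ) := by
  have he' : (0 : ℝ) < e := by exact_mod_cast he
  have hev : ∀ᶠ k : ℕ in atTop,
      c / C * (n : ℝ) ^ (2 * g) * (((e : ℝ) * k) / ((e : ℝ) * k + m)) ^ g ≤ (d : ℝ) := by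
    filter_upwards [eventually_ge_atTop k1, eventually_ge_atTop (k0 + 1)] with k hk1 hk2
    have hek : k ≤ e * k := Nat.le_mul_of_pos_left k he
    have hk0 : k0 ≤ e * k + m := by omega
    have hk0' : k0 ≤ e * n ^ 2 * k := by
      have : e * k ≤ e * n ^ 2 * k := by
        have : 1 ≤ n ^ 2 := Nat.one_le_pow _ _ hn
        calc e * k = e * 1 * k := by ring
          _ ≤ e * n ^ 2 * k := by gcongr
      omega
    have hkpos : (0 : ℝ) < k := by
      have : 0 < k := by omega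
      exact_mod_cast this
    have hpos : (0 : ℝ) < (e : ℝ) * k + m := by positivity
    have h1 := h k hk1
    have h1' : (a (e * n ^ 2 * k) : ℝ) ≤ (d : ℝ) * (a (e * k + m) : ℝ) := by exact_mod_cast h1
    have h2 := hlow _ hk0'
    have h3 := hup _ hk0
    have hdnn : (0 : ℝ) ≤ d := Nat.cast_nonneg d
    have h4 : c * ((e : ℝ) * n ^ 2 * k) ^ g ≤ (d : ℝ) * (C * ((e : ℝ) * k + m) ^ g) := by
      calc c * ((e : ℝ) * n ^ 2 * k) ^ g = c * (((e * n ^ 2 * k : ℕ) : ℝ)) ^ g := by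
            push_cast; ring
        _ ≤ (a (e * n ^ 2 * k) : ℝ) := h2
        _ ≤ (d : ℝ) * (a (e * k + m) : ℝ) := h1'
        _ ≤ (d : ℝ) * (C * (((e * k + m : ℕ) : ℝ)) ^ g) := by gcongr
        _ = (d : ℝ) * (C * ((e : ℝ) * k + m) ^ g) := by push_cast; ring
    have hpg : (0 : ℝ) < ((e : ℝ) * k + m) ^ g := pow_pos hpos g
    have h5 : c * ((e : ℝ) * n ^ 2 * k) ^ g / (C * ((e : ℝ) * k + m) ^ g) ≤ (d : ℝ) := by
      rw [div_le_iff₀ (mul_pos hC hpg)]; exact h4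
    calc c / C * (n : ℝ) ^ (2 * g) * (((e : ℝ) * k) / ((e : ℝ) * k + m)) ^ g
        = c * ((e : ℝ) * n ^ 2 * k) ^ g / (C * ((e : ℝ) * k + m) ^ g) := by
          rw [div_pow, pow_mul]
          have : ((e : ℝ) * n ^ 2 * k) ^ g = ((n : ℝ) ^ 2) ^ g * ((e : ℝ) * k) ^ g := by
            rw [← mul_pow]; ring_nf
          rw [this]
          field_simp
      _ ≤ (d : ℝ) := h5
  have hlim : Tendsto (fun k : ℕ =>
      c / C * (n : ℝ) ^ (2 * g) * (((e : ℝ) * k) / ((e : ℝ) * k + m)) ^ g) atTop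
      (𝓝 (c / C * (n : ℝ) ^ (2 * g) * 1)) :=
    (tendsto_ratio_add e m g he).const_mul _
  rw [mul_one] at hlim
  exact le_of_tendsto hlim hev

end bounds

/-- **ARITH**.  `a k` has volume growth of order `k ^ g`; `d` is multiplicative along powers of
`n`; for every power `n ^ j` the sandwich holds (with constants `e, m, k1` depending on `j`).
Then `d n = n ^ (2 g)`. -/
theorem eq_pow_of_sandwich {a : ℕ → ℕ} {g : ℕ} {c C : ℝ} {k0 : ℕ} (hc : 0 < c) (hC : 0 < C)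
    (hlow : ∀ k, k0 ≤ k → c * (k : ℝ) ^ g ≤ a k)
    (hup : ∀ k, k0 ≤ k → (a k : ℝ) ≤ C * (k : ℝ) ^ g)
    (d : ℕ → ℕ) {n : ℕ} (hn : 0 < n)
    (hmul : ∀ j : ℕ, d (n ^ j) = d n ^ j)
    (hsand : ∀ j : ℕ, ∃ e m k1 : ℕ, 0 < e ∧ ∀ k, k1 ≤ k →
      d (n ^ j) * a (e * k - m) ≤ a (e * (n ^ j) ^ 2 * k) ∧
      a (e * (n ^ j) ^ 2 * k) ≤ d (n ^ j) * a (e * k + m)) :
    d n = n ^ (2 * g) := by
  have key : (d n : ℝ) = ((n : ℝ) ^ (2 * g)) := by
    have hpw : ∀ j : ℕ, ((n : ℝ) ^ j) ^ (2 * g) = ((n : ℝ) ^ (2 * g)) ^ j := by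
      intro j
      rw [← pow_mul, ← pow_mul, mul_comm]
    refine eq_of_forall_pow_le (B := C / c) (Nat.cast_nonneg _)
      (by positivity) ?_ ?_
    · intro j
      obtain ⟨e, m, k1, he, h⟩ := hsand j
      have hnj : 0 < n ^ j := pow_pos hn j
      have := le_of_sandwich_left hc hlow hup hnj he (fun k hk => (h k hk).1)
      rw [hmul j] at this
      push_cast at this
      rw [hpw j] at this
      exact this
    · intro j
      obtain ⟨e, m, k1, he, h⟩ := hsand j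
      have hnj : 0 < n ^ j := pow_pos hn j
      have := ge_of_sandwich_right hc hC hlow hup hnj he (fun k hk => (h k hk).2)
      rw [hmul j] at this
      push_cast at this
      rw [hpw j] at this
      have hcC : 0 < C / c := div_pos hC hc
      calc ((n : ℝ) ^ (2 * g)) ^ j = C / c * (c / C * ((n : ℝ) ^ (2 * g)) ^ j) := by
            field_simp
        _ ≤ C / c * (d n : ℝ) ^ j := by
            exact mul_le_mul_of_nonneg_left this hcC.le
  exact_mod_cast key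

end Fermat.Agent.JAC.Vol.Arith63
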