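/-
JAC / S26 track, chapter VOL (helper64): Nagata's substitution with a free base.

For `f ≠ 0` in `k[X_0,…,X_n]` and a base `B > max(1, totalDegree f)`, the `k`-algebra automorphism
`shiftEquiv B : X_0 ↦ X_0, X_i ↦ X_i + X_0 ^ (B ^ i)` maps `f` to a polynomial whose leading
coefficient with respect to `X_0` is a unit (`isUnit_leadingCoeff_finSuccEquiv_shift`).

This is Mathlib's `Mathlib/RingTheory/NoetherNormalization.lean` (Apache 2.0; authors Riccardo
Brasca, Sihan Su, Wan Lin, Xiaoyang Su), section `equivT`, where the corresponding lemmas are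
private and the base is fixed to `2 + totalDegree f`; we need a base divisible by the
characteristic, so the base is a parameter here.  The proofs follow the Mathlib ones.
-/
import Mathlib

set_option autoImplicit false

namespace Fermat.Agent.JAC.Vol.NagataShift64

open Polynomial MvPolynomial Ideal Nat RingHom List

variable {k : Type*} [Field k] {n : ℕ} (B : ℕ) (f : MvPolynomial (Fin (n + 1)) k)
variable (v w : Fin (n + 1) →₀ ℕ)

/-- The substitution `X_0 ↦ X_0`, `X_i ↦ X_i + c • X_0 ^ (B ^ i)`. -/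
noncomputable abbrev shift1 (c : k) :
    MvPolynomial (Fin (n + 1)) k →ₐ[k] MvPolynomial (Fin (n + 1)) k :=
  aeval fun i ↦ if i = 0 then X 0 else X i + c • X 0 ^ (B ^ i.1)

lemma shift1_comp_shift1_neg (c : k) :
    (shift1 (n := n) B c).comp (shift1 B (-c)) = AlgHom.id _ _ := by
  rw [comp_aeval, ← MvPolynomial.aeval_X_left]
  ext i v
  cases i using Fin.cases <;> simp

/-- The Nagata automorphism with base `B`. -/
noncomputable abbrev shiftEquiv :
    MvPolynomial (Fin (n + 1)) k ≃ₐ[k] MvPolynomial (Fin (n + 1)) k :=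
  AlgEquiv.ofAlgHom (shift1 B 1) (shift1 B (-1))
    (shift1_comp_shift1_neg B 1) (by simpa using shift1_comp_shift1_neg (k := k) (n := n) B (-1))

variable {B v w} in
lemma sum_pow_mul_ne (hB : 1 < B) (vlt : ∀ i, v i < B) (wlt : ∀ i, w i < B) (ne : v ≠ w) :
    ∑ x : Fin (n + 1), B ^ x.1 * v x ≠ ∑ x : Fin (n + 1), B ^ x.1 * w x := by
  intro h
  refine ne <| Finsupp.ext <| congrFun <| ofFn_inj.mp ?_
  apply ofDigits_inj_of_len_eq hB (by simp) (by grind) (by grind)
  simpa only [ofDigits_eq_sum_mapIdx, mapIdx_eq_ofFn, get_ofFn, length_ofFn,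
    Fin.val_cast, mul_comm, sum_ofFn] using! h

lemma degreeOf_zero_shift (hB : 1 < B) {a : k} (ha : a ≠ 0) :
    ((shiftEquiv B) (monomial v a)).degreeOf 0 = ∑ i : Fin (n + 1), B ^ i.1 * v i := by
  have hpos : ∀ i : ℕ, 0 < B ^ i := fun i => Nat.pow_pos (by omega)
  rw [← natDegree_finSuccEquiv, monomial_eq, Finsupp.prod_pow v fun a ↦ X a]
  simp only [Fin.prod_univ_succ, Fin.sum_univ_succ, map_mul, map_prod, map_pow,
    AlgEquiv.ofAlgHom_apply, MvPolynomial.aeval_C, MvPolynomial.aeval_X, if_pos, Fin.succ_ne_zero,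
    ite_false, one_smul, map_add, finSuccEquiv_X_zero, finSuccEquiv_X_succ, algebraMap_eq]
  have h (i : Fin n) :
      (Polynomial.C (X (R := k) i) + Polynomial.X ^ (B ^ i.succ.1)) ^ v i.succ ≠ 0 :=
    pow_ne_zero (v i.succ) (leadingCoeff_ne_zero.mp <| by
      rw [add_comm, leadingCoeff_X_pow_add_C (hpos _)]; exact one_ne_zero)
  rw [natDegree_mul (by simp [ha]) (mul_ne_zero (by simp) (Finset.prod_ne_zero_iff.mpr
    (fun i _ ↦ h i))), natDegree_mul (by simp) (Finset.prod_ne_zero_iff.mpr (fun i _ ↦ h i)),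
    natDegree_prod _ _ (fun i _ ↦ h i), natDegree_finSuccEquiv, degreeOf_C]
  simpa only [natDegree_pow, zero_add, natDegree_X, mul_one, Fin.val_zero, pow_zero, one_mul,
    add_right_inj] using Finset.sum_congr rfl (fun i _ ↦ by
    rw [add_comm (Polynomial.C _), natDegree_X_pow_add_C, mul_comm])

variable {B f v w} in
/-- The shift maps different monomials of `f` to polynomials of different degrees in `X_0`. -/
lemma degreeOf_shift_ne_of_ne (hB : 1 < B) (hf : f.totalDegree < B)
    (hv : v ∈ f.support) (hw : w ∈ f.support) (ne : v ≠ w) :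
    (shiftEquiv B <| monomial v <| coeff v f).degreeOf 0 ≠
    (shiftEquiv B <| monomial w <| coeff w f).degreeOf 0 := by
  rw [degreeOf_zero_shift _ _ hB <| mem_support_iff.mp hv,
    degreeOf_zero_shift _ _ hB <| mem_support_iff.mp hw]
  refine sum_pow_mul_ne hB (fun i ↦ ?_) (fun i ↦ ?_) ne <;>
  exact lt_of_le_of_lt ((monomial_le_degreeOf i ‹_›).trans (degreeOf_le_totalDegree f i)) hf

lemma leadingCoeff_finSuccEquiv_shift (hB : 1 < B) :
    (finSuccEquiv k n ((shiftEquiv B) ((monomial v) (coeff v f)))).leadingCoeff =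
    algebraMap k _ (coeff v f) := by
  have hpos : ∀ i : ℕ, 0 < B ^ (i + 1) := fun i => Nat.pow_pos (by omega)
  rw [monomial_eq, Finsupp.prod_fintype]
  · simp only [map_mul, map_prod, leadingCoeff_mul, leadingCoeff_prod]
    rw [AlgEquiv.ofAlgHom_apply, algHom_C, algebraMap_eq, finSuccEquiv_apply,
      eval₂Hom_C, coe_comp]
    simp only [AlgEquiv.ofAlgHom_apply, Function.comp_apply, leadingCoeff_C, map_pow,
      leadingCoeff_pow, algebraMap_eq]
    have : ∀ j, ((finSuccEquiv k n) ((shift1 B) 1 (X j))).leadingCoeff = 1 := fun j ↦ by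
      by_cases h : j = 0
      · simp [h, finSuccEquiv_apply]
      · simp only [aeval_eq_bind₁, bind₁_X_right, if_neg h, one_smul, map_add, map_pow]
        obtain ⟨i, rfl⟩ := Fin.exists_succ_eq.mpr h
        simp only [finSuccEquiv_X_succ, finSuccEquiv_X_zero, Fin.val_succ]
        rw [add_comm, leadingCoeff_X_pow_add_C (hpos _)]
    simp only [this, one_pow, Finset.prod_const_one, mul_one]
  exact fun i ↦ pow_zero _

variable {B f} in
/-- The shift maps `f` to a polynomial in `X_0` with invertible leading coefficient. -/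
theorem isUnit_leadingCoeff_finSuccEquiv_shift (hB : 1 < B) (hf : f.totalDegree < B)
    (fne : f ≠ 0) : IsUnit (finSuccEquiv k n (shiftEquiv B f)).leadingCoeff := by
  obtain ⟨v, vin, vs⟩ := Finset.exists_max_image f.support
    (fun v ↦ (shiftEquiv B ((monomial v) (coeff v f))).degreeOf 0) (support_nonempty.mpr fne)
  set h := fun w ↦ (MvPolynomial.monomial w) (coeff w f)
  simp only [← natDegree_finSuccEquiv] at vs
  replace vs : ∀ x ∈ f.support \ {v}, (finSuccEquiv k n ((shiftEquiv B) (h x))).degree <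
      (finSuccEquiv k n ((shiftEquiv B) (h v))).degree := by
    intro x hx
    obtain ⟨h1, h2⟩ := Finset.mem_sdiff.mp hx
    apply degree_lt_degree <| lt_of_le_of_ne (vs x h1) ?_
    simpa only [natDegree_finSuccEquiv]
      using degreeOf_shift_ne_of_ne hB hf h1 vin <| ne_of_not_mem_cons h2
  have coeff : (finSuccEquiv k n ((shiftEquiv B) (h v + ∑ x ∈ f.support \ {v}, h x))).leadingCoeff =
      (finSuccEquiv k n ((shiftEquiv B) (h v))).leadingCoeff := by
    simp only [map_add, map_sum]
    rw [add_comm]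
    apply leadingCoeff_add_of_degree_lt <| (lt_of_le_of_lt <| degree_sum_le _ _) ?_
    have h2 : h v ≠ 0 := by simpa [h] using mem_support_iff.mp vin
    replace h2 : (finSuccEquiv k n ((shiftEquiv B) (h v))) ≠ 0 := fun eq ↦ h2 <|
      by simpa only [map_eq_zero_iff _ (AlgEquiv.injective _)] using eq
    exact (Finset.sup_lt_iff <| Ne.bot_lt (fun x ↦ h2 <| degree_eq_bot.mp x)).mpr vs
  nth_rw 1 [← f.support_sum_monomial_coeff]
  rw [Finset.sum_eq_add_sum_sdiff_singleton_of_mem vin h]
  rw [leadingCoeff_finSuccEquiv_shift _ _ _ hB] at coeff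
  simpa only [coeff, algebraMap_eq] using (mem_support_iff.mp vin).isUnit.map MvPolynomial.C

end Fermat.Agent.JAC.Vol.NagataShift64
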